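import Fermat.Agent.X0Genus.Count
import Fermat.Agent.ModPoly.Main

/-!
# The degree of `F_N` over `K(j)`
-/

set_option autoImplicit false
set_option linter.style.haveILetI false
set_option linter.unusedSectionVars false

noncomputable section

open ModularCurve IntermediateField

namespace Fermat.Agent.X0Genus

open Fermat.Agent.ModPoly AlgebraicCurve Fermat.Agent.Curve

variable (K : Type*) [Field K] [Algebra ℚ K] (N : ℕ)

theorem baseChange_eq :
    laurentBaseChange K (modularFunctionFieldFull N) = modularFunctionFieldFullC K N := by
  apply le_antisymm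
  · intro x hx
    refine baseChange_le N (modularFunctionFieldFullC K N).toSubfield ?_ ?_ x hx
    · intro a
      exact (modularFunctionFieldFullC K N).algebraMap_mem a
    · intro d _ hd
      exact jqModCd_mem_full K N hd
  · rw [modularFunctionFieldFullC, adjoin_le_iff]
    rintro x ⟨d, hd0, hd, rfl⟩
    haveI := hd0
    exact jd_mem N d hd

variable [IsAlgClosed K] [NeZero N]

theorem finrank_of_eq (hN : (N : K) ≠ 0) (E : IntermediateField K (LaurentSeries K))
    (h : E = modularFunctionFieldFullC K N) (j : E) (hj : (j : LaurentSeries K) = jqModC K) :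
    FiniteDimensional K⟮j⟯ E ∧ Module.finrank K⟮j⟯ E = dedekindPsi N := by
  subst h
  have : j = jF' K N := by
    apply Subtype.ext
    rw [hj]
    exact Jc_one_one.symm
  subst this
  exact ⟨finiteDimensional_E hN, finrank_E hN⟩

variable [CharZero K]

theorem natCast_ne_zero' : (N : K) ≠ 0 := by
  exact_mod_cast NeZero.ne N

instance finiteDimensional_jj :
    FiniteDimensional K⟮jj K N⟯ (laurentBaseChange K (modularFunctionFieldFull N)) :=
  (finrank_of_eq K N (natCast_ne_zero' K N) _ (baseChange_eq K N) (jj K N) (coe_jj N)).1

theorem finrank_jj :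
    Module.finrank K⟮jj K N⟯ (laurentBaseChange K (modularFunctionFieldFull N)) = dedekindPsi N :=
  (finrank_of_eq K N (natCast_ne_zero' K N) _ (baseChange_eq K N) (jj K N) (coe_jj N)).2

theorem degree_canonical_X0 (ι : K →+* ℂ)
    {ω : Ω[laurentBaseChange K (modularFunctionFieldFull N)⁄K]} (hω : ω ≠ 0)
    (D : Divisor K (laurentBaseChange K (modularFunctionFieldFull N)))
    (hD : ∀ v, D v = v.ordDifferential ω) :
    ((Divisor.degree D : ℤ) : ℚ) = 2 * genusFormula N - 2 := by
  have hn := finrank_jj K N
  have h1 := degree_canonical (jj K N) (transcendental_jj N) 0 1728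
    (by
      intro h
      have : ((1728 : ℕ) : K) = ((0 : ℕ) : K) := by push_cast; exact h.symm
      have := Nat.cast_injective this
      norm_num at this)
    (by
      intro c hc0 hc1 v hv
      refine count_generic N ι hn c ?_ ?_ v hv
      · intro h
        apply hc0
        rw [← map_zero ι] at h
        exact ι.injective h
      · intro h
        apply hc1
        rw [← map_ofNat ι] at h
        exact ι.injective h) hω D hD
  have h2 := count_zero N ι hn
  have h3 := count_1728 N ι hn
  have h4 := count_cusps N ι hn
  rw [hn, h4] at h1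
  rw [h1, genusFormula]
  have h2' := congrArg (Nat.cast : ℕ → ℚ) h2
  have h3' := congrArg (Nat.cast : ℕ → ℚ) h3
  push_cast at h2' h3' ⊢
  linarith

end Fermat.Agent.X0Genus
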