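import Fermat.Agent.X0Genus.Full

/-!
# Every place of `F_N` comes from a point of `ℍ` or from a cusp
-/

set_option autoImplicit false
set_option linter.style.haveILetI false
set_option linter.unusedSectionVars false

noncomputable section

open UpperHalfPlane Complex ModularCurve Filter ModularForm IntermediateField CongruenceSubgroup
open scoped Topology Manifold MatrixGroups

namespace Fermat.Agent.X0Genus

open Fermat.Agent.JFun Fermat.Agent.ModPoly Fermat.Agent.Cosets AlgebraicCurve Fermat.Agent.Curve

variable {K : Type*} [Field K] [IsAlgClosed K] [CharZero K] [Algebra ℚ K] (N : ℕ) [NeZero N]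
  (ι : K →+* ℂ)

theorem ramJ_dvd_six (c : ℂ) : ramJ c ∣ 6 := by
  rw [ramJ]
  split_ifs <;> norm_num

theorem ramJ_pos (c : ℂ) : 0 < ramJ c := by
  rw [ramJ]
  split_ifs <;> norm_num

/-- Every place of `F_N` above a finite value `c` of `j` comes from an embedding `phiX N ι x`
followed by the Laurent expansion at any prescribed `τ₀ ∈ ℍ` with `j(τ₀) = ι c`. -/
theorem exists_point_of_place_aux (v : Place K (laurentBaseChange K (modularFunctionFieldFull N)))
    (c : K) (hc : 0 < v.ord (jj K N - algebraMap K _ c)) (τ₀ : ℍ) (hτ : jfun τ₀ = ι c) :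
    ∃ (x : X N) (e : ℕ), 0 < e ∧ e ∣ ramJ (ι c) ∧ ∀ f : laurentBaseChange K (modularFunctionFieldFull N),
      f ≠ 0 → (thetaM τ₀ (phiX N ι x f)).order = e * v.ord f := by
  have ht := transcendental_sub (transcendental_jj (K := K) N) c
  haveI : FiniteDimensional K⟮jj K N - algebraMap K _ c⟯
      (laurentBaseChange K (modularFunctionFieldFull N)) := by
    rw [adjoin_simple_sub]; infer_instance
  have hwt : ∀ x : X N, (((thetaM τ₀).comp (phiX N ι x)) (jj K N - algebraMap K _ c)).order =
      ramJ (ι c) := by
    intro x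
    have h1 : ((thetaM τ₀).comp (phiX N ι x)) (jj K N - algebraMap K _ c) =
        thetaL τ₀ (jH - constH (ι c)) := by
      rw [RingHom.comp_apply, phiX, map_sub, phiM_const, phiM_jj, ← map_sub, thetaM_algebraMap]
    rw [h1]
    apply order_thetaL
    have h2 := ordAt_jfun_sub τ₀
    rw [hτ] at h2
    exact h2
  obtain ⟨x, m, hm0, hm⟩ := exists_embedding_of_place (jj K N - algebraMap K _ c) ht
    (fun x : X N => (thetaM τ₀).comp (phiX N ι x)) (by
      intro x y hxy
      apply phiX_injective N ι
      apply RingHom.ext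
      intro f
      exact (thetaM τ₀).injective (congrArg (fun F => F f) hxy)) (by
      intro x y
      apply agree_on_adjoin
      · intro a
        simp only [RingHom.comp_apply, phiX, phiM_const]
      · simp only [RingHom.comp_apply, phiX, map_sub, phiM_const, phiM_jj])
    (by rw [card_X, adjoin_simple_sub, finrank_jj])
    HahnSeries.order (fun f g hf hg => HahnSeries.order_mul hf hg)
    (fun f g hf hg hfg => HahnSeries.min_order_le_order_add hfg)
    (by
      intro x a ha
      rw [RingHom.comp_apply, phiX, phiM_const, thetaM_algebraMap, thetaL_constH,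
        HahnSeries.order_C])
    (by
      intro x
      rw [hwt]
      exact_mod_cast ramJ_pos _) v hc
  have hne : jj K N - algebraMap K _ c ≠ 0 := by
    intro h
    exact ht (by rw [h]; exact isAlgebraic_zero)
  have h1 := hm _ hne
  rw [hwt] at h1
  obtain ⟨e, rfl⟩ := Int.eq_ofNat_of_zero_le hm0.le
  refine ⟨x, e, by exact_mod_cast hm0, ?_, hm⟩
  have h2 : (e : ℤ) ∣ (ramJ (ι c) : ℤ) := ⟨_, h1⟩
  exact_mod_cast h2

/-- Every place of `F_N` where `j` is finite comes from a point of the upper half plane. -/
theorem exists_point_of_place (v : Place K (laurentBaseChange K (modularFunctionFieldFull N)))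
    (hv : 0 ≤ v.ord (jj K N)) :
    ∃ (x : X N) (τ₀ : ℍ) (e : ℕ), 0 < e ∧ e ∣ 6 ∧
      ∀ f : laurentBaseChange K (modularFunctionFieldFull N),
        f ≠ 0 → (thetaM τ₀ (phiX N ι x f)).order = e * v.ord f := by
  obtain ⟨c, hc⟩ := exists_sub_pos v (transcendental_jj (K := K) N) hv
  obtain ⟨τ₀, hτ⟩ := jfun_surjective (ι c)
  obtain ⟨x, e, h1, h2, h3⟩ := exists_point_of_place_aux N ι v c hc τ₀ hτ
  exact ⟨x, τ₀, e, h1, h2.trans (ramJ_dvd_six _), h3⟩

/-- Every place of `F_N` where `j` has a pole comes from a cusp: the order is computed by the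
expansion in `q^(1/N)` of a conjugate. -/
theorem exists_cusp_of_place (v : Place K (laurentBaseChange K (modularFunctionFieldFull N)))
    (hv : v.ord (jj K N) < 0) :
    ∃ (x : X N) (e : ℕ), 0 < e ∧ e ∣ N ∧
      ∀ f : laurentBaseChange K (modularFunctionFieldFull N),
        f ≠ 0 → (phiC N ι x f).order = e * v.ord f := by
  have ht0 := transcendental_jj (K := K) N
  have ht : Transcendental K (jj K N)⁻¹ := by
    intro h
    exact ht0 (by simpa using h.inv)
  have hadj : K⟮(jj K N)⁻¹⟯ = K⟮jj K N⟯ := adjoin_simple_inv' _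
  haveI : FiniteDimensional K⟮(jj K N)⁻¹⟯
      (laurentBaseChange K (modularFunctionFieldFull N)) := by
    rw [hadj]; infer_instance
  have hwt : ∀ x : X N, (phiC N ι x (jj K N)⁻¹).order = N := by
    intro x
    rw [map_inv₀, phiC_jj]
    have h2 : (qExpand ℂ N (jqModC ℂ)) ≠ 0 := by
      intro h
      have := order_qExpand (k := ℂ) N (jqModC ℂ)
      rw [h, order_jqModC] at this
      simp at this
      exact NeZero.ne N this
    have h3 := HahnSeries.order_mul h2 (inv_ne_zero h2)
    rw [mul_inv_cancel₀ h2, HahnSeries.order_one, order_qExpand, order_jqModC] at h3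
    linarith
  obtain ⟨x, m, hm0, hm⟩ := exists_embedding_of_place (jj K N)⁻¹ ht (phiC N ι)
    (phiC_injective N ι) (by
      intro x y
      apply agree_on_adjoin
      · intro a
        rw [phiC_const, phiC_const]
      · rw [map_inv₀, map_inv₀, phiC_jj, phiC_jj])
    (by rw [card_X, hadj, finrank_jj])
    HahnSeries.order (fun f g hf hg => HahnSeries.order_mul hf hg)
    (fun f g hf hg hfg => HahnSeries.min_order_le_order_add hfg)
    (by
      intro x a ha
      rw [phiC_const, HahnSeries.order_C])
    (by
      intro x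
      rw [hwt]
      exact_mod_cast NeZero.pos N) v (by rw [v.ord_inv]; omega)
  have hj0 : jj K N ≠ 0 := by
    intro h
    exact ht0 (by rw [h]; exact isAlgebraic_zero)
  have h1 := hm _ (inv_ne_zero hj0)
  rw [hwt] at h1
  obtain ⟨e, rfl⟩ := Int.eq_ofNat_of_zero_le hm0.le
  refine ⟨x, e, by exact_mod_cast hm0, ?_, hm⟩
  have h2 : (e : ℤ) ∣ (N : ℤ) := ⟨_, h1⟩
  exact_mod_cast h2

/-- Conversely every pair (coset, point of `ℍ` with `j`-value in `K`) defines a place. -/
theorem exists_place_of_point (x : X N) (τ₀ : ℍ) (c : K) (hc : jfun τ₀ = ι c) :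
    ∃ (v : Place K (laurentBaseChange K (modularFunctionFieldFull N))) (m : ℤ), 0 < m ∧
      ∀ f : laurentBaseChange K (modularFunctionFieldFull N),
        f ≠ 0 → (thetaM τ₀ (phiX N ι x f)).order = m * v.ord f := by
  obtain ⟨v, m, hm0, hm⟩ := exists_place_of_embedding (K := K)
    ((thetaM τ₀).comp (phiX N ι x)) HahnSeries.order
    (fun f g hf hg => HahnSeries.order_mul hf hg)
    (fun f g hf hg hfg => HahnSeries.min_order_le_order_add hfg)
    (by
      intro a ha
      rw [RingHom.comp_apply, phiX, phiM_const, thetaM_algebraMap, thetaL_constH,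
        HahnSeries.order_C])
    ⟨jj K N - algebraMap K _ c, sub_ne_zero.2 (by
      intro h
      exact transcendental_jj (K := K) N (by rw [h]; exact isAlgebraic_algebraMap _)), by
      have h1 : ((thetaM τ₀).comp (phiX N ι x)) (jj K N - algebraMap K _ c) =
          thetaL τ₀ (jH - constH (ι c)) := by
        rw [RingHom.comp_apply, phiX, map_sub, phiM_const, phiM_jj, ← map_sub,
          thetaM_algebraMap]
      have h2 := ordAt_jfun_sub τ₀
      rw [hc] at h2
      rw [h1, order_thetaL τ₀ h2]
      have := ramJ_pos (ι c)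
      omega⟩
  exact ⟨v, m, hm0, fun f hf => hm f hf⟩

/-- Every coset defines a place above `j = ∞`. -/
theorem exists_place_of_cusp (x : X N) :
    ∃ (v : Place K (laurentBaseChange K (modularFunctionFieldFull N))) (m : ℤ), 0 < m ∧
      ∀ f : laurentBaseChange K (modularFunctionFieldFull N),
        f ≠ 0 → (phiC N ι x f).order = m * v.ord f := by
  obtain ⟨v, m, hm0, hm⟩ := exists_place_of_embedding (K := K)
    (phiC N ι x) HahnSeries.order
    (fun f g hf hg => HahnSeries.order_mul hf hg)
    (fun f g hf hg hfg => HahnSeries.min_order_le_order_add hfg)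
    (by
      intro a ha
      rw [phiC_const, HahnSeries.order_C])
    ⟨jj K N, by
      intro h
      exact transcendental_jj (K := K) N (by rw [h]; exact isAlgebraic_zero), by
      rw [phiC_jj, order_qExpand, order_jqModC]
      have := NeZero.pos N
      omega⟩
  exact ⟨v, m, hm0, fun f hf => hm f hf⟩

end Fermat.Agent.X0Genus
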