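import Fermat.Agent.X0Genus.Hol

/-!
# Realising the modular function field inside the field of meromorphic quotients
-/

set_option autoImplicit false
set_option linter.style.haveILetI false

noncomputable section

open UpperHalfPlane Complex ModularCurve Filter ModularForm IntermediateField
open scoped Topology Manifold MatrixGroups

namespace Fermat.Agent.X0Genus

open Fermat.Agent.JFun Fermat.Agent.ModPoly

section Generators

variable {K : Type*} [Field K] [Algebra ℚ K] (N : ℕ)

theorem coeffEmb_qExpand_jq (d : ℕ) [NeZero d] :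
    coeffEmb K (qExpand ℚ d jq) = qExpand K d (jqModC K) := by
  rw [coeffEmb, coeffMap_qExpand, ← jqModC_rat, coeffMap_jqModC]

theorem coeffEmb_algebraMap (r : ℚ) :
    coeffEmb K (algebraMap ℚ (LaurentSeries ℚ) r) =
      algebraMap K (LaurentSeries K) (algebraMap ℚ K r) := by
  rw [algebraMap_laurentSeries_eq_single, algebraMap_laurentSeries_eq_single, coeffEmb,
    coeffMap_single]

/-- The modular function field over `K` is generated by `K` and the `j(q^d)`. -/
theorem baseChange_le (S : Subfield (LaurentSeries K))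
    (hK : ∀ a : K, algebraMap K (LaurentSeries K) a ∈ S)
    (hj : ∀ (d : ℕ) [NeZero d], d ∣ N → qExpand K d (jqModC K) ∈ S) :
    ∀ x ∈ laurentBaseChange K (modularFunctionFieldFull N), x ∈ S := by
  intro x hx
  rw [mem_laurentBaseChange_iff] at hx
  refine (Subfield.closure_le (t := S)).2 ?_ hx
  rintro y (⟨a, rfl⟩ | ⟨z, hz, rfl⟩)
  · exact hK a
  · let T : Subfield (LaurentSeries ℚ) := S.comap (coeffEmb K)
    have hT : z ∈ T := by
      have hz' : z ∈ Subfield.closure
          (Set.range (algebraMap ℚ (LaurentSeries ℚ)) ∪ divisorExpansions N) := hz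
      refine (Subfield.closure_le (t := T)).2 ?_ hz'
      rintro w (⟨r, rfl⟩ | ⟨d, hd0, hd, rfl⟩)
      · change coeffEmb K _ ∈ S
        rw [coeffEmb_algebraMap]
        exact hK _
      · change coeffEmb K _ ∈ S
        haveI := hd0
        rw [coeffEmb_qExpand_jq]
        exact hj d hd
    exact hT

theorem const_mem (a : K) :
    algebraMap K (LaurentSeries K) a ∈ laurentBaseChange K (modularFunctionFieldFull N) :=
  IntermediateField.algebraMap_mem _ a

theorem jd_mem (d : ℕ) [NeZero d] (hd : d ∣ N) :
    qExpand K d (jqModC K) ∈ laurentBaseChange K (modularFunctionFieldFull N) := by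
  rw [← coeffEmb_qExpand_jq]
  exact coeffEmb_mem_laurentBaseChange K (jqd_mem_full N hd)

/-- The element `j(q^d)` of the function field. -/
def jd (K : Type*) [Field K] [Algebra ℚ K] (N d : ℕ) [NeZero d] (hd : d ∣ N) :
    laurentBaseChange K (modularFunctionFieldFull N) :=
  ⟨qExpand K d (jqModC K), jd_mem N d hd⟩

/-- Two ring homomorphisms agreeing on constants and on the `j(q^d)` are equal. -/
theorem hom_ext_baseChange {L : Type*} [Field L]
    {f g : laurentBaseChange K (modularFunctionFieldFull N) →+* L}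
    (hK : ∀ a : K, f (algebraMap K _ a) = g (algebraMap K _ a))
    (hj : ∀ (d : ℕ) [NeZero d] (hd : d ∣ N), f (jd K N d hd) = g (jd K N d hd)) : f = g := by
  let E : Subfield (laurentBaseChange K (modularFunctionFieldFull N)) := RingHom.eqLocusField f g
  let S : Subfield (LaurentSeries K) :=
    E.map (algebraMap (laurentBaseChange K (modularFunctionFieldFull N)) (LaurentSeries K))
  have key := baseChange_le N S (by
      intro a
      exact ⟨algebraMap K _ a, hK a, rfl⟩) (by
      intro d _ hd
      exact ⟨jd K N d hd, hj d hd, rfl⟩)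
  apply RingHom.ext
  intro x
  obtain ⟨y, hy, hyx⟩ := key x.1 x.2
  have : y = x := Subtype.ext hyx
  rw [← this]
  exact hy

end Generators

/-! ### Quotients of convergent Laurent series -/

instance : IsDomain ConvL := inferInstance

/-- Fraction field of the ring of convergent Laurent series, inside `ℂ((q))`. -/
def inclC : FractionRing ConvL →+* LaurentSeries ℂ :=
  IsFractionRing.lift (A := ConvL) (K := FractionRing ConvL) (L := LaurentSeries ℂ)
    (g := ConvL.subtype) Subtype.val_injective

theorem inclC_algebraMap (F : ConvL) : inclC (algebraMap ConvL _ F) = F.1 :=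
  IsFractionRing.lift_algebraMap _ F

/-- `evP` with values in holomorphic functions. -/
def evPh (p : ℕ) [NeZero p] : ConvL →+* hol :=
  (evP p).codRestrict hol (mdiff_evP p)

theorem evPh_apply (p : ℕ) [NeZero p] (F : ConvL) (τ : ℍ) :
    (evPh p F : ℍ → ℂ) τ = evz F.1 (qpp p τ) := rfl

theorem evPh_injective (p : ℕ) [NeZero p] : Function.Injective (evPh p) := by
  intro F G h
  apply evP_injective p
  exact congrArg Subtype.val h

/-- Evaluation of quotients at `q^{1/p}`. -/
def evM (p : ℕ) [NeZero p] : FractionRing ConvL →+* MF := fmap (evPh p) (evPh_injective p)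

theorem evM_algebraMap (p : ℕ) [NeZero p] (F : ConvL) :
    evM p (algebraMap ConvL _ F) = algebraMap hol MF (evPh p F) := fmap_algebraMap _ _ F

/-- The inverse of `inclC` on its range. -/
def invC : inclC.fieldRange ≃+* FractionRing ConvL :=
  (RingEquiv.ofBijective inclC.rangeRestrictField
    ⟨inclC.rangeRestrictField.injective, inclC.rangeRestrictField_bijective.2⟩).symm

theorem invC_inclC (x : FractionRing ConvL) (h : inclC x ∈ inclC.fieldRange) :
    invC ⟨inclC x, h⟩ = x := by
  rw [invC, RingEquiv.symm_apply_eq]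
  rfl

theorem conv_qExpand_jqModC (d : ℕ) [NeZero d] : Conv (qExpand ℂ d (jqModC ℂ)) :=
  conv_jqModC.qExpand d

section Embedding

variable {K : Type*} [Field K] [Algebra ℚ K] (N : ℕ) (ι : K →+* ℂ)

theorem coeffMap_mem_range (x : LaurentSeries K)
    (hx : x ∈ laurentBaseChange K (modularFunctionFieldFull N)) :
    coeffMap ι x ∈ inclC.fieldRange := by
  refine baseChange_le N (inclC.fieldRange.comap (coeffMap ι)) ?_ ?_ x hx
  · intro a
    change coeffMap ι _ ∈ inclC.fieldRange
    refine ⟨algebraMap ConvL _ ⟨HahnSeries.single 0 (ι a), conv_single 0 _⟩, ?_⟩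
    rw [inclC_algebraMap, algebraMap_laurentSeries_eq_single, coeffMap_single]
  · intro d _ hd
    change coeffMap ι _ ∈ inclC.fieldRange
    refine ⟨algebraMap ConvL _ ⟨_, conv_qExpand_jqModC d⟩, ?_⟩
    rw [inclC_algebraMap, coeffMap_qExpand, coeffMap_jqModC]

/-- The base embedding of the modular function field into `MF`. -/
def phi0 : laurentBaseChange K (modularFunctionFieldFull N) →+* MF :=
  ((evM 1).comp invC.toRingHom).comp
    (((coeffMap ι).comp (algebraMap (laurentBaseChange K (modularFunctionFieldFull N))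
      (LaurentSeries K))).codRestrict inclC.fieldRange
      (fun x => coeffMap_mem_range N ι x.1 x.2))

theorem phi0_of_conv (x : laurentBaseChange K (modularFunctionFieldFull N)) (F : ConvL)
    (h : coeffMap ι x.1 = F.1) : phi0 N ι x = algebraMap hol MF (evPh 1 F) := by
  have h1 : (⟨coeffMap ι x.1, coeffMap_mem_range N ι x.1 x.2⟩ : inclC.fieldRange) =
      ⟨inclC (algebraMap ConvL _ F), inclC.mem_fieldRange.2 ⟨_, rfl⟩⟩ := by
    apply Subtype.ext
    change coeffMap ι x.1 = inclC (algebraMap ConvL _ F)
    rw [inclC_algebraMap, h]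
  change evM 1 (invC ⟨coeffMap ι x.1, coeffMap_mem_range N ι x.1 x.2⟩) = _
  rw [h1, invC_inclC, evM_algebraMap]

theorem phi0_const (a : K) :
    phi0 N ι (algebraMap K _ a) = algebraMap hol MF (constH (ι a)) := by
  rw [phi0_of_conv N ι (algebraMap K _ a) ⟨HahnSeries.single 0 (ι a), conv_single 0 _⟩]
  · congr 1
    apply Subtype.ext
    funext τ
    rw [evPh_apply, evz_single]
    simp [constH]
  · change coeffMap ι (algebraMap K (LaurentSeries K) a) = _
    rw [algebraMap_laurentSeries_eq_single, coeffMap_single]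

/-- the holomorphic function `j(d τ)` -/
def jdH (d : ℕ) [NeZero d] : hol := evPh 1 ⟨_, conv_qExpand_jqModC d⟩

/-- multiplication by `d` on the upper half plane -/
def mulD (d : ℕ) [NeZero d] (τ : ℍ) : ℍ :=
  ⟨(d : ℂ) * τ, by
    have h2 : ((d : ℂ) * τ).im = (d : ℝ) * τ.im := by simp
    rw [h2]
    exact mul_pos (cast_pos' d) τ.im_pos⟩

theorem coe_mulD (d : ℕ) [NeZero d] (τ : ℍ) : (mulD d τ : ℂ) = (d : ℂ) * τ := rfl

theorem qpp_one (τ : ℍ) : qpp 1 τ = Function.Periodic.qParam 1 τ := by
  simp [qpp]

theorem jdH_apply (d : ℕ) [NeZero d] (τ : ℍ) : (jdH d : ℍ → ℂ) τ = jfun (mulD d τ) := by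
  rw [jdH, evPh_apply]
  simp only
  rw [evz_qExpand, ← evz_jqModC, qpp_one]
  congr 1
  rw [Function.Periodic.qParam, Function.Periodic.qParam, ← Complex.exp_nat_mul, coe_mulD]
  congr 1
  ring

theorem phi0_jd (d : ℕ) [NeZero d] (hd : d ∣ N) :
    phi0 N ι (jd K N d hd) = algebraMap hol MF (jdH d) := by
  rw [phi0_of_conv N ι (jd K N d hd) ⟨_, conv_qExpand_jqModC d⟩]
  · rfl
  · change coeffMap ι (qExpand K d (jqModC K)) = _
    rw [coeffMap_qExpand, coeffMap_jqModC]

end Embedding

end Fermat.Agent.X0Genus
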