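import Fermat.Agent.X0Genus.Base

/-!
# Upper triangular representatives, stabilisers, growth at infinity
-/

set_option autoImplicit false
set_option linter.style.haveILetI false

noncomputable section

open UpperHalfPlane Complex ModularCurve Filter ModularForm IntermediateField
open scoped Topology Manifold MatrixGroups

local notation "𝕢" => Function.Periodic.qParam

namespace Fermat.Agent.X0Genus

open Fermat.Agent.JFun Fermat.Agent.ModPoly

theorem coe_smul' (g : SL(2, ℤ)) (z : ℍ) : ((g • z : ℍ) : ℂ) =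
    (((g 0 0 : ℤ) : ℂ) * z + ((g 0 1 : ℤ) : ℂ)) / (((g 1 0 : ℤ) : ℂ) * z + ((g 1 1 : ℤ) : ℂ)) := by
  rw [UpperHalfPlane.coe_specialLinearGroup_apply]
  simp

theorem den_ne (g : SL(2, ℤ)) (z : ℍ) : (((g 1 0 : ℤ) : ℂ) * z + ((g 1 1 : ℤ) : ℂ)) ≠ 0 := by
  have := denom_ne_zero' g z
  rwa [ModularGroup.denom_apply] at this

theorem det_eq' (g : SL(2, ℤ)) : (g 0 0 : ℤ) * g 1 1 - g 0 1 * g 1 0 = 1 := by
  have := g.det_coe
  rwa [Matrix.det_fin_two] at this

/-- The point `(A τ + B) / D`. -/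
def affD (A D : ℕ) [NeZero A] [NeZero D] (B : ℤ) (τ : ℍ) : ℍ :=
  ⟨((A : ℂ) * τ + B) / D, by
    have h1 : (0 : ℝ) < A := cast_pos' A
    have h3 : (0 : ℝ) < D := cast_pos' D
    have h2 : (((A : ℂ) * τ + B) / D).im = (A : ℝ) * τ.im / D := by
      rw [Complex.div_natCast_im]
      simp
    rw [h2]
    have := τ.im_pos
    positivity⟩

theorem coe_affD (A D : ℕ) [NeZero A] [NeZero D] (B : ℤ) (τ : ℍ) :
    (affD A D B τ : ℂ) = ((A : ℂ) * τ + B) / D := rfl

theorem im_affD (A D : ℕ) [NeZero A] [NeZero D] (B : ℤ) (τ : ℍ) :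
    (affD A D B τ).im = (A : ℝ) / D * τ.im := by
  change (((A : ℂ) * τ + B) / D).im = _
  rw [Complex.div_natCast_im]
  simp
  ring

theorem im_mulD (d : ℕ) [NeZero d] (τ : ℍ) : (mulD d τ).im = d * τ.im := by
  change ((d : ℂ) * τ).im = _
  simp

/-- Upper triangular representatives. -/
theorem exists_decomp (d : ℕ) [NeZero d] (g : SL(2, ℤ)) :
    ∃ (A D : ℕ) (_ : NeZero A) (_ : NeZero D) (B : ℤ) (ε : SL(2, ℤ)), A * D = d ∧
      (A : ℤ) ∣ g 1 0 ∧ ∀ τ, mulD d (g • τ) = ε • affD A D B τ := by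
  have hdet := det_eq' g
  set a : ℤ := g 0 0
  set b : ℤ := g 0 1
  set c : ℤ := g 1 0
  set e : ℤ := g 1 1
  have hd0 : (d : ℤ) ≠ 0 := by exact_mod_cast NeZero.ne d
  set A : ℕ := Int.gcd (d : ℤ) c with hA
  have hA0 : A ≠ 0 := by
    rw [hA, ne_eq, Int.gcd_eq_zero_iff]
    exact fun h => hd0 h.1
  have hAd : (A : ℤ) ∣ d := Int.gcd_dvd_left _ _
  have hAc : (A : ℤ) ∣ c := Int.gcd_dvd_right _ _
  obtain ⟨D', hD'⟩ := hAd
  obtain ⟨r, hr⟩ := hAc
  have hApos : (0 : ℤ) < A := by exact_mod_cast Nat.pos_of_ne_zero hA0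
  have hdpos : (0 : ℤ) < d := by exact_mod_cast NeZero.pos d
  have hD'pos : 0 < D' := by
    by_contra hcon
    push Not at hcon
    nlinarith
  -- Bezout
  have hbez : IsCoprime (a * D') r := by
    have h1 : IsCoprime D' r := by
      have hg : ((Int.gcd (d : ℤ) c : ℕ) : ℤ) = d * Int.gcdA d c + c * Int.gcdB d c :=
        Int.gcd_eq_gcd_ab _ _
      rw [← hA] at hg
      generalize Int.gcdA d c = u at hg
      generalize Int.gcdB d c = v at hg
      refine ⟨u, v, ?_⟩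
      have h3 : (A : ℤ) * (u * D' + v * r) = A * 1 := by
        linear_combination -hg - u * hD' - v * hr
      exact mul_left_cancel₀ hApos.ne' h3
    have h2 : IsCoprime a r := by
      refine ⟨e, -(b * A), ?_⟩
      rw [← hdet, hr]
      ring
    exact h2.mul_left h1
  obtain ⟨s, q', hs⟩ := hbez
  -- `s * (a D') + q' * r = 1`
  let ε : SL(2, ℤ) := ⟨!![a * D', -q'; r, s], by
    rw [Matrix.det_fin_two_of]
    linear_combination hs⟩
  haveI : NeZero A := ⟨hA0⟩
  haveI : NeZero D'.toNat := ⟨by omega⟩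
  have hDcast : ((D'.toNat : ℕ) : ℤ) = D' := Int.toNat_of_nonneg hD'pos.le
  refine ⟨A, D'.toNat, inferInstance, inferInstance, s * (d * b) + q' * e, ε, ?_, ⟨r, hr⟩, ?_⟩
  · have : ((A * D'.toNat : ℕ) : ℤ) = (d : ℕ) := by
      push_cast
      rw [hDcast, ← hD']
    exact_mod_cast this
  · intro τ
    apply UpperHalfPlane.ext
    rw [coe_mulD, coe_smul', coe_smul', coe_affD]
    have hden := den_ne g τ
    have hden2 := den_ne ε (affD A D'.toNat (s * (d * b) + q' * e) τ)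
    rw [coe_affD] at hden2
    have e00 : (ε 0 0 : ℤ) = a * D' := rfl
    have e01 : (ε 0 1 : ℤ) = -q' := rfl
    have e10 : (ε 1 0 : ℤ) = r := rfl
    have e11 : (ε 1 1 : ℤ) = s := rfl
    rw [e00, e01, e10, e11]
    rw [e10, e11] at hden2
    have hDc : ((D'.toNat : ℕ) : ℂ) = (D' : ℂ) := by
      exact_mod_cast congrArg (Int.cast : ℤ → ℂ) hDcast
    have hD0 : (D' : ℂ) ≠ 0 := by exact_mod_cast hD'pos.ne'
    rw [hDc] at hden2 ⊢
    have k1 : (d : ℂ) = A * D' := by exact_mod_cast hD'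
    have k2 : (((g 1 0 : ℤ)) : ℂ) = A * r := by exact_mod_cast hr
    have k3 : (s : ℂ) * (a * D') + q' * r = 1 := by exact_mod_cast hs
    have k4 : (a : ℂ) * e - b * (g 1 0 : ℤ) = 1 := by exact_mod_cast hdet
    have n1 : ((a * D' : ℤ) : ℂ) * (((A : ℂ) * τ + ((s * (d * b) + q' * e : ℤ) : ℂ)) / D')
        + ((-q' : ℤ) : ℂ) = A * (a * τ + b) := by
      push_cast
      field_simp
      rw [k1]
      linear_combination (A * b : ℂ) * k3 + (q' : ℂ) * k4 + (q' * b : ℂ) * k2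
    have n2 : ((r : ℤ) : ℂ) * (((A : ℂ) * τ + ((s * (d * b) + q' * e : ℤ) : ℂ)) / D')
        + ((s : ℤ) : ℂ) = (((g 1 0 : ℤ) : ℂ) * τ + (g 1 1 : ℤ)) / D' := by
      push_cast
      field_simp
      rw [k1]
      have ke : ((g 1 1 : ℤ) : ℂ) = (e : ℂ) := rfl
      rw [ke]
      linear_combination (e : ℂ) * k3 - (s * D' : ℂ) * k4 - (τ + b * s * D' : ℂ) * k2
    rw [n1, n2, k1]
    change (A : ℂ) * D' * ((a * τ + b) / _) = _
    field_simp

/-- `j(d τ)` is invariant under `Γ₀(N)` for `d ∣ N`. -/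
theorem jfun_mulD_of_mem_Gamma0 {N d : ℕ} [NeZero d] (hd : d ∣ N) {g : SL(2, ℤ)}
    (hg : g ∈ CongruenceSubgroup.Gamma0 N) (τ : ℍ) :
    jfun (mulD d (g • τ)) = jfun (mulD d τ) := by
  have hdet := det_eq' g
  rw [CongruenceSubgroup.Gamma0_mem, ZMod.intCast_zmod_eq_zero_iff_dvd] at hg
  have hd' : (d : ℤ) ∣ g 1 0 := (Int.natCast_dvd_natCast.2 hd).trans hg
  obtain ⟨c', hc'⟩ := hd'
  let ε : SL(2, ℤ) := ⟨!![g 0 0, d * g 0 1; c', g 1 1], by
    rw [Matrix.det_fin_two_of]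
    rw [hc'] at hdet
    linear_combination hdet⟩
  have key : mulD d (g • τ) = ε • mulD d τ := by
    apply UpperHalfPlane.ext
    rw [coe_mulD, coe_smul', coe_smul', coe_mulD]
    have hden := den_ne g τ
    have hden2 := den_ne ε (mulD d τ)
    rw [coe_mulD] at hden2
    have e00 : (ε 0 0 : ℤ) = g 0 0 := rfl
    have e01 : (ε 0 1 : ℤ) = d * g 0 1 := rfl
    have e10 : (ε 1 0 : ℤ) = c' := rfl
    have e11 : (ε 1 1 : ℤ) = g 1 1 := rfl
    rw [e00, e01, e10, e11]
    rw [e10, e11] at hden2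
    have k2 : (((g 1 0 : ℤ)) : ℂ) = d * c' := by exact_mod_cast hc'
    rw [k2] at hden ⊢
    push_cast
    rw [mul_div_assoc']
    congr 1 <;> ring
  rw [key, jfun_smul]

theorem tendsto_q_mul_jfun :
    Tendsto (fun τ : ℍ => 𝕢 1 τ * jfun τ) atImInfty (𝓝 1) := by
  have hconv : Conv (HahnSeries.single (1 : ℤ) (1 : ℂ) * jqModC ℂ) :=
    (conv_single _ _).mul conv_jqModC
  have hcoef : ∀ n : ℤ, (HahnSeries.single (1 : ℤ) (1 : ℂ) * jqModC ℂ).coeff n =
      (jqModC ℂ).coeff (n - 1) := by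
    intro n
    rw [HahnSeries.coeff_single_mul, one_mul]
  have h0 : ∀ n < 0, (HahnSeries.single (1 : ℤ) (1 : ℂ) * jqModC ℂ).coeff n = 0 := by
    intro n hn
    rw [hcoef]
    have := coeff_jqModC_pow_of_lt ℂ (b := 1) (m := n - 1) (by push_cast; omega)
    simpa using this
  have h1 : (HahnSeries.single (1 : ℤ) (1 : ℂ) * jqModC ℂ).coeff 0 = 1 := by
    rw [hcoef]
    exact coeff_jqModC_neg_one ℂ
  have ht := tendsto_evz_zero hconv h0
  rw [h1] at ht
  have hq : Tendsto (fun τ : ℍ => 𝕢 1 τ) atImInfty (𝓝[{0}ᶜ] 0) := by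
    refine tendsto_nhdsWithin_iff.mpr ⟨UpperHalfPlane.qParam_tendsto_atImInfty one_pos, ?_⟩
    exact Eventually.of_forall fun τ => qParam_one_ne_zero τ
  refine (ht.comp hq).congr fun τ => ?_
  rw [Function.comp_apply, evz_mul (conv_single _ _) conv_jqModC (qParam_one_ne_zero τ)
    (norm_qParam_one_lt τ), evz_single, evz_jqModC]
  simp

theorem tendsto_affD (A D : ℕ) [NeZero A] [NeZero D] (B : ℤ) :
    Tendsto (affD A D B) atImInfty atImInfty := by
  rw [atImInfty, tendsto_comap_iff]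
  have : (UpperHalfPlane.im ∘ affD A D B) = fun τ : ℍ => (A : ℝ) / D * τ.im := by
    funext τ
    exact im_affD A D B τ
  rw [this]
  have hpos : (0 : ℝ) < (A : ℝ) / D := div_pos (cast_pos' A) (cast_pos' D)
  exact (tendsto_comap (f := UpperHalfPlane.im)).const_mul_atTop hpos

theorem mulD_eq_affD (d : ℕ) [NeZero d] (τ : ℍ) : mulD d τ = affD d 1 0 τ := by
  apply UpperHalfPlane.ext
  rw [coe_mulD, coe_affD]
  simp

theorem norm_qParam_one (τ : ℍ) : ‖𝕢 1 τ‖ = Real.exp (-2 * Real.pi * τ.im) := by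
  rw [Function.Periodic.norm_qParam]
  simp

/-- If `j(N g τ) = j(N τ)` for all `τ` then `g ∈ Γ₀(N)`. -/
theorem mem_Gamma0_of_jfun {N : ℕ} [NeZero N] {g : SL(2, ℤ)}
    (h : ∀ τ, jfun (mulD N (g • τ)) = jfun (mulD N τ)) : g ∈ CongruenceSubgroup.Gamma0 N := by
  obtain ⟨A, D, hA, hD, B, ε, hAD, hAc, hε⟩ := exists_decomp N g
  have h1 : ∀ τ, jfun (affD A D B τ) = jfun (affD N 1 0 τ) := by
    intro τ
    rw [← mulD_eq_affD, ← h τ, hε τ, jfun_smul]
  have t1 := tendsto_q_mul_jfun.comp (tendsto_affD A D B)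
  have t2 := tendsto_q_mul_jfun.comp (tendsto_affD N 1 0)
  have t3 : Tendsto (fun τ => ‖𝕢 1 (affD N 1 0 τ)‖ / ‖𝕢 1 (affD A D B τ)‖) atImInfty (𝓝 1) := by
    have t4 := (t2.div t1 one_ne_zero).norm
    rw [div_one, norm_one] at t4
    have hne : ∀ᶠ τ in atImInfty, jfun (affD A D B τ) ≠ 0 := by
      have := t1.eventually_ne one_ne_zero
      filter_upwards [this] with τ hτ h0
      apply hτ
      simp only [Function.comp_apply, h0, mul_zero]
    refine t4.congr' ?_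
    filter_upwards [hne] with τ hτ
    simp only [Function.comp_apply, Pi.div_apply]
    rw [← h1 τ, mul_div_mul_right _ _ hτ, norm_div]
  have hDN : D = 1 := by
    by_contra hD1
    have hNpos : (0 : ℝ) < N := cast_pos' N
    have hApos : (0 : ℝ) < A := cast_pos' A
    have hDpos : (0 : ℝ) < D := cast_pos' D
    have hD2 : (2 : ℝ) ≤ D := by
      have : 2 ≤ D := by
        have := NeZero.pos D
        omega
      exact_mod_cast this
    have hN : (N : ℝ) = A * D := by rw [← hAD]; push_cast; ring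
    have hc : 0 < (N : ℝ) - A / D := by
      have : (A : ℝ) / D < A := by
        rw [div_lt_iff₀ hDpos]
        nlinarith
      nlinarith
    have t5 : Tendsto (fun τ : ℍ => ‖𝕢 1 (affD N 1 0 τ)‖ / ‖𝕢 1 (affD A D B τ)‖) atImInfty
        (𝓝 0) := by
      have e1 : (fun τ : ℍ => ‖𝕢 1 (affD N 1 0 τ)‖ / ‖𝕢 1 (affD A D B τ)‖) =
          fun τ : ℍ => Real.exp (-((2 * Real.pi * ((N : ℝ) - A / D)) * τ.im)) := by
        funext τ
        rw [norm_qParam_one, norm_qParam_one, ← Real.exp_sub, im_affD, im_affD]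
        congr 1
        push_cast
        ring
      rw [e1]
      apply Real.tendsto_exp_neg_atTop_nhds_zero.comp
      exact (tendsto_comap (f := UpperHalfPlane.im)).const_mul_atTop
        (mul_pos (by positivity) hc)
    have := tendsto_nhds_unique t3 t5
    norm_num at this
  rw [CongruenceSubgroup.Gamma0_mem, ZMod.intCast_zmod_eq_zero_iff_dvd]
  rw [hDN, mul_one] at hAD
  rw [← hAD]
  exact hAc

end Fermat.Agent.X0Genus
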