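import Fermat.Agent.Cosets.Basic
import Fermat.Agent.X0Genus.Upper

/-!
# The embeddings of the modular function field indexed by `SL₂(ℤ)/Γ₀(N)`
-/

set_option autoImplicit false
set_option linter.style.haveILetI false

noncomputable section

open UpperHalfPlane Complex ModularCurve Filter ModularForm IntermediateField CongruenceSubgroup
open scoped Topology Manifold MatrixGroups

namespace Fermat.Agent.X0Genus

open Fermat.Agent.JFun Fermat.Agent.ModPoly Fermat.Agent.Cosets

variable {K : Type*} [Field K] [Algebra ℚ K] (N : ℕ) [NeZero N] (ι : K →+* ℂ)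

/-- `j` as a holomorphic function. -/
def jH : hol := ⟨jfun, mdiff_jfun⟩

omit [NeZero N] in
theorem jdH_one : jdH 1 = jH := by
  apply Subtype.ext
  funext τ
  rw [jdH_apply]
  change _ = jfun τ
  congr 1
  apply UpperHalfPlane.ext
  rw [coe_mulD]
  simp

theorem pull_jH (g : SL(2, ℤ)) : pull g jH = jH := by
  apply Subtype.ext
  funext τ
  exact jfun_smul g τ

/-- The embedding attached to `g`. -/
def phiM (g : SL(2, ℤ)) : laurentBaseChange K (modularFunctionFieldFull N) →+* MF :=
  (act g).comp (phi0 N ι)

omit [NeZero N] in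
theorem phiM_const (g : SL(2, ℤ)) (a : K) :
    phiM N ι g (algebraMap K _ a) = algebraMap hol MF (constH (ι a)) := by
  rw [phiM, RingHom.comp_apply, phi0_const, act_algebraMap, pull_constH]

omit [NeZero N] in
theorem phiM_jd (g : SL(2, ℤ)) (d : ℕ) [NeZero d] (hd : d ∣ N) :
    phiM N ι g (jd K N d hd) = algebraMap hol MF (pull g⁻¹ (jdH d)) := by
  rw [phiM, RingHom.comp_apply, phi0_jd, act_algebraMap]

/-- The element `j` of the modular function field. -/
def jj (K : Type*) [Field K] [Algebra ℚ K] (N : ℕ) :
    laurentBaseChange K (modularFunctionFieldFull N) := jd K N 1 (one_dvd N)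

omit [NeZero N] in
theorem phiM_jj (g : SL(2, ℤ)) : phiM N ι g (jj K N) = algebraMap hol MF jH := by
  rw [jj, phiM_jd, jdH_one, pull_jH]

theorem pull_jdH_of_mem {d : ℕ} [NeZero d] (hd : d ∣ N) {g : SL(2, ℤ)} (hg : g ∈ Gamma0 N) :
    pull g (jdH d) = jdH d := by
  apply Subtype.ext
  funext τ
  rw [pull_apply, jdH_apply, jdH_apply]
  exact jfun_mulD_of_mem_Gamma0 hd hg τ

theorem phiM_mul_of_mem (g : SL(2, ℤ)) {δ : SL(2, ℤ)} (hδ : δ ∈ Gamma0 N) :
    phiM N ι (g * δ) = phiM N ι g := by
  apply hom_ext_baseChange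
  · intro a
    rw [phiM_const, phiM_const]
  · intro d _ hd
    rw [phiM_jd, phiM_jd, mul_inv_rev, pull_mul, pull_jdH_of_mem N hd (inv_mem hδ)]

theorem phiM_eq_iff (g g' : SL(2, ℤ)) :
    phiM N ι g = phiM N ι g' ↔ (QuotientGroup.mk g : X N) = QuotientGroup.mk g' := by
  rw [QuotientGroup.eq]
  constructor
  · intro h
    have h1 := congrArg (fun f => f (jd K N N dvd_rfl)) h
    simp only [phiM_jd] at h1
    have h2 := algebraMap_injective_MF h1
    have h3 := congrArg (pull g) h2
    rw [← pull_mul, ← pull_mul, inv_mul_cancel, pull_one] at h3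
    have h4 : g'⁻¹ * g ∈ Gamma0 N := by
      apply mem_Gamma0_of_jfun
      intro τ
      have h5 := congrArg (fun f : hol => (f : ℍ → ℂ) τ) h3
      simp only [pull_apply, jdH_apply] at h5
      exact h5.symm
    have h5 := inv_mem h4
    rwa [mul_inv_rev, inv_inv] at h5
  · intro h
    have h1 := phiM_mul_of_mem N ι g h
    rw [mul_inv_cancel_left] at h1
    exact h1.symm

/-- The embedding attached to a coset. -/
def phiX (x : X N) : laurentBaseChange K (modularFunctionFieldFull N) →+* MF :=
  phiM N ι (Quotient.out x)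

theorem phiX_mk (g : SL(2, ℤ)) : phiX N ι (QuotientGroup.mk g) = phiM N ι g := by
  rw [phiX, phiM_eq_iff]
  exact QuotientGroup.out_eq' _

theorem phiX_injective : Function.Injective (phiX N ι) := by
  intro x y h
  rw [phiX, phiX, phiM_eq_iff] at h
  have h1 : (QuotientGroup.mk (Quotient.out x) : X N) = x := QuotientGroup.out_eq' _
  have h2 : (QuotientGroup.mk (Quotient.out y) : X N) = y := QuotientGroup.out_eq' _
  rw [h1, h2] at h
  exact h

theorem act_comp_phiX (g : SL(2, ℤ)) (x : X N) : (act g).comp (phiX N ι x) = phiX N ι (g • x) := by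
  induction x using QuotientGroup.induction_on with
  | H h =>
    rw [phiX_mk, smul_mk, phiX_mk, phiM, phiM, act_mul]
    rfl

/-- A subfield containing the constants and the `j(q^d)` is everything. -/
theorem mem_of_generators {K : Type*} [Field K] [Algebra ℚ K] (N : ℕ)
    (T : Subfield (laurentBaseChange K (modularFunctionFieldFull N)))
    (hK : ∀ a : K, algebraMap K _ a ∈ T)
    (hj : ∀ (d : ℕ) [NeZero d] (hd : d ∣ N), jd K N d hd ∈ T)
    (x : laurentBaseChange K (modularFunctionFieldFull N)) : x ∈ T := by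
  let S : Subfield (LaurentSeries K) :=
    T.map (algebraMap (laurentBaseChange K (modularFunctionFieldFull N)) (LaurentSeries K))
  have key := baseChange_le N S (by
      intro a
      exact ⟨algebraMap K _ a, hK a, rfl⟩) (by
      intro d _ hd
      exact ⟨jd K N d hd, hj d hd, rfl⟩)
  obtain ⟨y, hy, hyx⟩ := key x.1 x.2
  have : y = x := Subtype.ext hyx
  rw [← this]
  exact hy

/-- Ring homomorphisms agreeing on constants and on `j` agree on `K(j)`. -/
theorem agree_on_adjoin {K : Type*} [Field K] [Algebra ℚ K] {N : ℕ} {L : Type*} [Field L]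
    (f g : laurentBaseChange K (modularFunctionFieldFull N) →+* L)
    (t : laurentBaseChange K (modularFunctionFieldFull N))
    (hK : ∀ a : K, f (algebraMap K _ a) = g (algebraMap K _ a)) (hj : f t = g t) :
    ∀ z ∈ K⟮t⟯, f z = g z := by
  intro z hz
  have hz' : z ∈ Subfield.closure (Set.range (algebraMap K
    (laurentBaseChange K (modularFunctionFieldFull N))) ∪ {t}) := hz
  have h2 : Subfield.closure (Set.range (algebraMap K
    (laurentBaseChange K (modularFunctionFieldFull N))) ∪ {t}) ≤ RingHom.eqLocusField f g := by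
    rw [Subfield.closure_le]
    rintro y (⟨a, rfl⟩ | hy)
    · exact hK a
    · rw [Set.mem_singleton_iff] at hy
      rw [hy]
      exact hj
  exact h2 hz'

end Fermat.Agent.X0Genus
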