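import Fermat.Agent.JFun.Orders
import Fermat.Agent.X0Genus.Embeddings

/-!
# Expansions at a point of the upper half plane
-/

set_option autoImplicit false
set_option linter.style.haveILetI false

noncomputable section

open UpperHalfPlane Complex ModularCurve Filter ModularForm IntermediateField CongruenceSubgroup
open scoped Topology Manifold MatrixGroups

namespace Fermat.Agent.X0Genus

open Fermat.Agent.JFun Fermat.Agent.ModPoly Fermat.Agent.Cosets

variable (τ₀ : ℍ)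

/-- The inverse Cayley transform. -/
def cay (u : ℂ) : ℂ := ((τ₀ : ℂ) - (starRingEnd ℂ) (τ₀ : ℂ) * u) / (1 - u)

theorem cay_zero : cay τ₀ 0 = τ₀ := by simp [cay]

theorem analyticAt_cay : AnalyticAt ℂ (cay τ₀) 0 := by
  apply AnalyticAt.div
  · fun_prop
  · fun_prop
  · simp

theorem deriv_cay_ne_zero : deriv (cay τ₀) 0 ≠ 0 := by
  have h1 : HasDerivAt (fun u : ℂ => (τ₀ : ℂ) - (starRingEnd ℂ) (τ₀ : ℂ) * u)
      (-(starRingEnd ℂ) (τ₀ : ℂ)) 0 := by
    have := ((hasDerivAt_id (0 : ℂ)).const_mul ((starRingEnd ℂ) (τ₀ : ℂ))).const_sub (τ₀ : ℂ)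
    simpa using this
  have h2 : HasDerivAt (fun u : ℂ => 1 - u) (-1) 0 := by
    simpa using (hasDerivAt_id (0 : ℂ)).const_sub (1 : ℂ)
  have h3 := h1.div h2 (by simp)
  have h4 : deriv (cay τ₀) 0 = _ := h3.deriv
  rw [h4]
  simp only [sub_zero, mul_zero, mul_one, mul_neg, one_pow, div_one]
  intro h
  have h5 : (τ₀ : ℂ) = (starRingEnd ℂ) (τ₀ : ℂ) := by linear_combination h
  have h6 := congrArg Complex.im h5
  rw [Complex.conj_im] at h6
  have h7 : 0 < (τ₀ : ℂ).im := τ₀.im_pos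
  linarith

/-- `f` in the Cayley coordinate. -/
def locF (f : ℍ → ℂ) : ℂ → ℂ := (f ∘ ofComplex) ∘ cay τ₀

theorem analyticAt_locF {f : ℍ → ℂ} (hf : MDiff f) : AnalyticAt ℂ (locF τ₀ f) 0 := by
  apply AnalyticAt.comp
  · rw [cay_zero]
    exact analyticAt_of_mdiff hf τ₀
  · exact analyticAt_cay τ₀

theorem order_locF (f : ℍ → ℂ) : analyticOrderAt (locF τ₀ f) 0 = ordAt f τ₀ := by
  rw [locF, analyticOrderAt_comp_of_deriv_ne_zero (analyticAt_cay τ₀) (deriv_cay_ne_zero τ₀),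
    cay_zero]
  rfl

/-- Taylor expansion in the Cayley coordinate. -/
def thetaP : hol →+* PowerSeries ℂ where
  toFun f := taylorPS (locF τ₀ f) 0
  map_one' := taylorPS_one 0
  map_zero' := by
    have := taylorPS_const 0 0
    rw [map_zero] at this
    exact this
  map_mul' f g := taylorPS_mul (analyticAt_locF τ₀ f.2) (analyticAt_locF τ₀ g.2)
  map_add' f g := taylorPS_add (analyticAt_locF τ₀ f.2) (analyticAt_locF τ₀ g.2)

theorem ordAt_ne_top {f : ℍ → ℂ} (hf : MDiff f) (hf0 : f ≠ 0) : ordAt f τ₀ ≠ ⊤ := by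
  intro h
  apply hf0
  apply UpperHalfPlane.eq_zero_of_frequently hf (τ := τ₀)
  rw [ordAt, analyticOrderAt_eq_top] at h
  have h2 : ∀ᶠ z : ℍ in 𝓝 τ₀, f z = 0 := by
    have h3 := (continuous_coe.tendsto τ₀).eventually h
    filter_upwards [h3] with z hz
    simpa [ofComplex_apply] using hz
  exact (h2.filter_mono nhdsWithin_le_nhds).frequently

theorem thetaP_injective : Function.Injective (thetaP τ₀) := by
  rw [injective_iff_map_eq_zero]
  intro f hf
  by_contra hne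
  have hne' : (f : ℍ → ℂ) ≠ 0 := fun h => hne (Subtype.ext h)
  have h1 := ordAt_ne_top τ₀ f.2 hne'
  obtain ⟨n, hn⟩ := ENat.ne_top_iff_exists.1 h1
  have h2 : analyticOrderAt (locF τ₀ f) 0 = n := by rw [order_locF, ← hn]
  rw [analyticOrderAt_eq_nat_iff_iteratedDeriv_eq_zero (analyticAt_locF τ₀ f.2)] at h2
  apply h2.2
  have h3 : (taylorPS (locF τ₀ f) 0).coeff n = 0 := by
    change (thetaP τ₀ f).coeff n = 0
    rw [hf]; simp
  rw [coeff_taylorPS] at h3
  rcases mul_eq_zero.1 h3 with h4 | h4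
  · rw [inv_eq_zero] at h4
    exact absurd h4 (by exact_mod_cast n.factorial_ne_zero)
  · exact h4

/-- Laurent expansion. -/
def thetaL : hol →+* LaurentSeries ℂ := (HahnSeries.ofPowerSeries ℤ ℂ).comp (thetaP τ₀)

theorem thetaL_injective : Function.Injective (thetaL τ₀) :=
  HahnSeries.ofPowerSeries_injective.comp (thetaP_injective τ₀)

theorem order_thetaL {f : hol} {n : ℕ} (h : ordAt f τ₀ = n) : (thetaL τ₀ f).order = n := by
  have h2 : analyticOrderAt (locF τ₀ f) 0 = n := by rw [order_locF, h]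
  rw [analyticOrderAt_eq_nat_iff_iteratedDeriv_eq_zero (analyticAt_locF τ₀ f.2)] at h2
  have hc : ∀ k : ℕ, (thetaL τ₀ f).coeff (k : ℤ) = (taylorPS (locF τ₀ f) 0).coeff k := by
    intro k
    rw [thetaL, RingHom.comp_apply, HahnSeries.ofPowerSeries_apply_coeff]
    rfl
  have h3 : (thetaL τ₀ f).coeff (n : ℤ) ≠ 0 := by
    rw [hc, coeff_taylorPS]
    exact mul_ne_zero (inv_ne_zero (by exact_mod_cast n.factorial_ne_zero)) h2.2
  have hne : thetaL τ₀ f ≠ 0 := by
    intro h0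
    rw [h0] at h3
    simp at h3
  apply le_antisymm (HahnSeries.order_le_of_coeff_ne_zero h3)
  by_contra hcon
  push Not at hcon
  have h4 := coeff_order_ne hne
  rcases lt_or_ge (thetaL τ₀ f).order 0 with h5 | h5
  · apply h4
    rw [thetaL, RingHom.comp_apply] at h5 ⊢
    generalize ((HahnSeries.ofPowerSeries ℤ ℂ) (thetaP τ₀ f)).order = o at h5
    exact ofPowerSeries_coeff_of_neg _ h5
  · obtain ⟨k, hk⟩ := Int.eq_ofNat_of_zero_le h5
    rw [hk] at h4 hcon
    apply h4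
    rw [hc, coeff_taylorPS, h2.1 k (by exact_mod_cast hcon), mul_zero]

/-- The embedding of meromorphic quotients into Laurent series at `τ₀`. -/
def thetaM : MF →+* LaurentSeries ℂ :=
  IsFractionRing.lift (A := hol) (K := MF) (L := LaurentSeries ℂ) (thetaL_injective τ₀)

theorem thetaM_algebraMap (f : hol) : thetaM τ₀ (algebraMap hol MF f) = thetaL τ₀ f :=
  IsFractionRing.lift_algebraMap _ f

theorem thetaL_constH (c : ℂ) : thetaL τ₀ (constH c) = HahnSeries.C c := by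
  have h1 : thetaP τ₀ (constH c) = PowerSeries.C c := taylorPS_const c 0
  rw [thetaL, RingHom.comp_apply, h1, HahnSeries.ofPowerSeries_C]

/-- Taylor series of `u ↦ F(c u)`. -/
theorem iteratedDeriv_scale (F : ℂ → ℂ) (c : ℂ) (n : ℕ) :
    iteratedDeriv n (fun u => F (c * u)) = fun u => c ^ n * iteratedDeriv n F (c * u) := by
  induction n with
  | zero => funext u; simp
  | succ n ih =>
    rw [iteratedDeriv_succ, ih]
    funext u
    rw [deriv_const_mul_field]
    have := deriv_comp_mul_left c (iteratedDeriv n F) u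
    rw [this, iteratedDeriv_succ, smul_eq_mul, pow_succ]
    ring

theorem coeff_taylorPS_scale (F : ℂ → ℂ) (c : ℂ) (n : ℕ) :
    (taylorPS (fun u => F (c * u)) 0).coeff n = c ^ n * (taylorPS F 0).coeff n := by
  rw [coeff_taylorPS, coeff_taylorPS, iteratedDeriv_scale]
  simp only [mul_zero]
  ring

variable {τ₀}

/-- The rotation factor of an element fixing `τ₀`. -/
def rot (τ₀ : ℍ) (h : SL(2, ℤ)) : ℂˣ :=
  Units.mk0 ((starRingEnd ℂ) (denom h τ₀) / denom h τ₀)
    (div_ne_zero (by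
      rw [ne_eq, map_eq_zero]
      exact denom_ne_zero' h τ₀) (denom_ne_zero' h τ₀))

theorem locF_pull {h : SL(2, ℤ)} (hh : h • τ₀ = τ₀) (f : hol) :
    locF τ₀ (pull h f) =ᶠ[𝓝 0] fun u => locF τ₀ f ((rot τ₀ h : ℂ) * u) := by
  set lam : ℂ := (rot τ₀ h : ℂ) with hlam
  have hc1 : ContinuousAt (cay τ₀) 0 := (analyticAt_cay τ₀).continuousAt
  have hc2 : ContinuousAt (fun u : ℂ => cay τ₀ (lam * u)) 0 := by
    have h1 : ContinuousAt (fun u : ℂ => lam * u) 0 := by fun_prop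
    apply ContinuousAt.comp (g := cay τ₀) (f := fun u : ℂ => lam * u) _ h1
    rw [mul_zero]
    exact hc1
  have e1 : ∀ᶠ u in 𝓝 (0 : ℂ), 0 < (cay τ₀ u).im := by
    have : {z : ℂ | 0 < z.im} ∈ 𝓝 (cay τ₀ 0) := by
      rw [cay_zero]
      exact (isOpen_lt continuous_const Complex.continuous_im).mem_nhds τ₀.im_pos
    exact hc1 this
  have e2 : ∀ᶠ u in 𝓝 (0 : ℂ), 0 < (cay τ₀ (lam * u)).im := by
    have : {z : ℂ | 0 < z.im} ∈ 𝓝 (cay τ₀ (lam * 0)) := by
      rw [mul_zero, cay_zero]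
      exact (isOpen_lt continuous_const Complex.continuous_im).mem_nhds τ₀.im_pos
    exact hc2 this
  have e3 : ∀ᶠ u in 𝓝 (0 : ℂ), (1 : ℂ) - u ≠ 0 := by
    have : ContinuousAt (fun u : ℂ => 1 - u) 0 := by fun_prop
    exact this.eventually_ne (by simp)
  have e4 : ∀ᶠ u in 𝓝 (0 : ℂ), (1 : ℂ) - lam * u ≠ 0 := by
    have : ContinuousAt (fun u : ℂ => 1 - lam * u) 0 := by fun_prop
    exact this.eventually_ne (by simp)
  filter_upwards [e1, e2, e3, e4] with u h1 h2 h3 h4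
  change (f : ℍ → ℂ) (h • ofComplex (cay τ₀ u)) = (f : ℍ → ℂ) (ofComplex (cay τ₀ (lam * u)))
  refine congrArg (f : ℍ → ℂ) ?_
  apply UpperHalfPlane.ext
  rw [coe_smul', ofComplex_apply_of_im_pos h1, ofComplex_apply_of_im_pos h2]
  have hD0 := den_ne h τ₀
  have hfix := congrArg (fun z : ℍ => (z : ℂ)) hh
  simp only [coe_smul'] at hfix
  rw [div_eq_iff hD0] at hfix
  have hfix2 := congrArg (starRingEnd ℂ) hfix
  simp only [map_add, map_mul, map_intCast] at hfix2
  have hlam2 : lam * (((h 1 0 : ℤ) : ℂ) * τ₀ + ((h 1 1 : ℤ) : ℂ)) =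
      ((h 1 0 : ℤ) : ℂ) * (starRingEnd ℂ) (τ₀ : ℂ) + ((h 1 1 : ℤ) : ℂ) := by
    rw [hlam, rot, Units.val_mk0, ModularGroup.denom_apply, div_mul_cancel₀ _ hD0]
    simp
  have hden := den_ne h (⟨cay τ₀ u, h1⟩ : ℍ)
  change ((h 1 0 : ℤ) : ℂ) * cay τ₀ u + ((h 1 1 : ℤ) : ℂ) ≠ 0 at hden
  rw [div_eq_iff hden]
  simp only [cay]
  generalize (τ₀ : ℂ) = z at *
  generalize (starRingEnd ℂ) z = w at *
  generalize ((h 0 0 : ℤ) : ℂ) = a at *
  generalize ((h 0 1 : ℤ) : ℂ) = b at *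
  generalize ((h 1 0 : ℤ) : ℂ) = c at *
  generalize ((h 1 1 : ℤ) : ℂ) = d at *
  clear hlam hc2 e2 e4 h2
  clear_value lam
  have k1 : a * ((z - w * u) / (1 - u)) + b = (a * (z - w * u) + b * (1 - u)) / (1 - u) := by
    field_simp
  have k2 : c * ((z - w * u) / (1 - u)) + d = (c * (z - w * u) + d * (1 - u)) / (1 - u) := by
    field_simp
  rw [k1, k2, div_mul_div_comm, div_eq_div_iff h3 (mul_ne_zero h4 h3)]
  linear_combination (1 - u) * ((1 - lam * u) * hfix - (1 - lam * u) * u * hfix2 -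
    (z - w) * u * hlam2)

theorem thetaM_act {g : SL(2, ℤ)} (hg : g • τ₀ = τ₀) :
    (thetaM τ₀).comp (act g) = (twist (rot τ₀ g⁻¹)).comp (thetaM τ₀) := by
  apply frac_hom_ext
  intro f
  have hg' : g⁻¹ • τ₀ = τ₀ := by rw [inv_smul_eq_iff, hg]
  rw [RingHom.comp_apply, RingHom.comp_apply, act_algebraMap, thetaM_algebraMap,
    thetaM_algebraMap, thetaL, RingHom.comp_apply, RingHom.comp_apply]
  ext n
  rw [twist_coeff]
  rcases lt_or_ge n 0 with hn | hn
  · rw [ofPowerSeries_coeff_of_neg _ hn, ofPowerSeries_coeff_of_neg _ hn, mul_zero]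
  · obtain ⟨k, rfl⟩ := Int.eq_ofNat_of_zero_le hn
    rw [HahnSeries.ofPowerSeries_apply_coeff, HahnSeries.ofPowerSeries_apply_coeff]
    change (taylorPS (locF τ₀ (pull g⁻¹ f)) 0).coeff k = _ * (taylorPS (locF τ₀ f) 0).coeff k
    rw [taylorPS_congr (locF_pull hg' f), coeff_taylorPS_scale]
    simp

end Fermat.Agent.X0Genus
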