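import Mathlib

/-!
# Counting the orbits of a permutation of prime order
-/

set_option autoImplicit false
set_option linter.style.haveILetI false

namespace Fermat.Agent.X0Genus

open Equiv.Perm

/-- The classes of `SameCycle σ` are the orbits of `⟨σ⟩`. -/
theorem sameCycle_iff_orbitRel {X : Type*} (σ : Equiv.Perm X) (x y : X) :
    SameCycle σ x y ↔ MulAction.orbitRel (Subgroup.zpowers σ) X x y := by
  rw [MulAction.orbitRel_apply, MulAction.mem_orbit_iff]
  constructor
  · rintro ⟨i, hi⟩
    refine ⟨⟨σ ^ (-i), -i, rfl⟩, ?_⟩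
    change (σ ^ (-i)) y = x
    rw [← hi, ← Equiv.Perm.mul_apply, ← zpow_add]
    simp
  · rintro ⟨⟨_, i, rfl⟩, hi⟩
    refine ⟨-i, ?_⟩
    change (σ ^ i) y = x at hi
    rw [← hi, ← Equiv.Perm.mul_apply, ← zpow_add]
    simp

theorem card_sameCycle_prime {X : Type*} [Finite X] (σ : Equiv.Perm X) {p : ℕ} (hp : p.Prime)
    (h : σ ^ p = 1) :
    p * Nat.card (Quotient (SameCycle.setoid σ)) =
      Nat.card X + (p - 1) * Nat.card {x // σ x = x} := by
  classical
  haveI := Fintype.ofFinite X
  have e0 : Nat.card (Quotient (SameCycle.setoid σ)) =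
      Nat.card (MulAction.orbitRel.Quotient (Subgroup.zpowers σ) X) := by
    refine Nat.card_congr (Quotient.congr (Equiv.refl X) ?_)
    intro x y
    exact sameCycle_iff_orbitRel σ x y
  rw [e0]
  rcases eq_or_ne σ 1 with rfl | hσ
  · have e1 : Nat.card {x : X // (1 : Equiv.Perm X) x = x} = Nat.card X := by
      refine Nat.card_congr (Equiv.subtypeUnivEquiv (fun x => rfl))
    have e2 : Nat.card (MulAction.orbitRel.Quotient (Subgroup.zpowers (1 : Equiv.Perm X)) X) =
        Nat.card X := by
      symm
      refine Nat.card_congr (Equiv.ofBijective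
        (fun x => (Quotient.mk'' x : MulAction.orbitRel.Quotient _ X)) ⟨?_, ?_⟩)
      · intro x y hxy
        have := Quotient.exact hxy
        obtain ⟨i, hi⟩ := (sameCycle_iff_orbitRel 1 x y).2 this
        simpa using hi
      · intro q
        induction q using Quotient.inductionOn' with
        | h x => exact ⟨x, rfl⟩
    rw [e1, e2]
    obtain ⟨m, rfl⟩ : ∃ m, p = m + 1 := ⟨p - 1, by have := hp.pos; omega⟩
    simp only [Nat.add_sub_cancel]
    ring
  · haveI : Fact p.Prime := ⟨hp⟩
    have ho : orderOf σ = p := orderOf_eq_prime h hσ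
    haveI : Fintype (Subgroup.zpowers σ) := Fintype.ofFinite _
    have hc : Fintype.card (Subgroup.zpowers σ) = p := by
      rw [← Nat.card_eq_fintype_card, Nat.card_zpowers, ho]
    have hb := MulAction.sum_card_fixedBy_eq_card_orbits_mul_card_group (Subgroup.zpowers σ) X
    rw [hc] at hb
    rw [← Nat.card_eq_fintype_card] at hb
    rw [mul_comm p]
    change _ = Nat.card (MulAction.orbitRel.Quotient (Subgroup.zpowers σ) X) * p at hb
    rw [← hb, ← Finset.add_sum_erase Finset.univ _ (Finset.mem_univ (1 : Subgroup.zpowers σ))]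
    have k1 : Fintype.card (MulAction.fixedBy X (1 : Subgroup.zpowers σ)) = Nat.card X := by
      rw [← Nat.card_eq_fintype_card]
      exact Nat.card_congr (Equiv.subtypeUnivEquiv (fun x => one_smul _ x))
    have k2 : ∀ a ∈ Finset.univ.erase (1 : Subgroup.zpowers σ),
        Fintype.card (MulAction.fixedBy X a) = Nat.card {x // σ x = x} := by
      intro a ha
      have ha1 : a ≠ 1 := (Finset.mem_erase.1 ha).1
      rw [← Nat.card_eq_fintype_card]
      refine Nat.card_congr (Equiv.subtypeEquivRight ?_)
      intro x
      rw [MulAction.mem_fixedBy]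
      obtain ⟨_, i, rfl⟩ := a
      change (σ ^ i) x = x ↔ σ x = x
      have hi : ¬ (p : ℤ) ∣ i := by
        intro hd
        apply ha1
        apply Subtype.ext
        change σ ^ i = 1
        rw [← ho] at hd
        exact orderOf_dvd_iff_zpow_eq_one.1 hd
      constructor
      · intro hx
        have hcop : IsCoprime i (p : ℤ) := by
          have := (Nat.prime_iff_prime_int.1 hp).coprime_iff_not_dvd.2 hi
          exact this.symm
        obtain ⟨u, v, huv⟩ := hcop
        have : σ = (σ ^ i) ^ u := by
          rw [← zpow_mul]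
          have e : i * u = 1 - p * v := by linear_combination huv
          rw [e, zpow_sub, zpow_one, zpow_mul, zpow_natCast, h]
          simp
        rw [this]
        exact Equiv.Perm.zpow_apply_eq_self_of_apply_eq_self hx u
      · intro hx
        exact Equiv.Perm.zpow_apply_eq_self_of_apply_eq_self hx i
    rw [k1, Finset.sum_congr rfl k2, Finset.sum_const, Finset.card_erase_of_mem (Finset.mem_univ _),
      Finset.card_univ, hc, smul_eq_mul]

end Fermat.Agent.X0Genus
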