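import Fermat.Agent.X0Genus.Elliptic
import Fermat.Agent.X0Genus.PermCount
import Fermat.Agent.ModPoly.Subst
import Fermat.Agent.ModPoly.Neighbor
import Fermat.Agent.Curve.Hurwitz

/-!
# The number of places of `F_N` over the points of the `j`-line
-/

set_option autoImplicit false
set_option linter.style.haveILetI false
set_option linter.unusedSectionVars false

noncomputable section

open UpperHalfPlane Complex ModularCurve Filter ModularForm IntermediateField CongruenceSubgroup
open scoped Topology Manifold MatrixGroups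

namespace Fermat.Agent.X0Genus

open Fermat.Agent.JFun Fermat.Agent.ModPoly Fermat.Agent.Cosets AlgebraicCurve Fermat.Agent.Curve

theorem dedekindPsi_ne_zero' (N : ℕ) [NeZero N] : dedekindPsi N ≠ 0 := by
  rw [← index_Gamma0]
  exact Subgroup.FiniteIndex.index_ne_zero

instance finite_X (N : ℕ) [NeZero N] : Finite (X N) := by
  apply Nat.finite_of_card_ne_zero
  rw [card_X]
  exact dedekindPsi_ne_zero' N

variable {K : Type*} [Field K] [IsAlgClosed K] [CharZero K] [Algebra ℚ K] (N : ℕ) [NeZero N]

theorem coe_jj : ((jj K N : laurentBaseChange K (modularFunctionFieldFull N)) : LaurentSeries K) =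
    jqModC K := by
  change qExpand K 1 (jqModC K) = _
  exact qExpand_one_apply _

theorem transcendental_jj : Transcendental K (jj K N) := by
  intro h
  obtain ⟨a, ha⟩ := mem_range_of_isAlgebraic h
  have h1 := congrArg (fun x : laurentBaseChange K (modularFunctionFieldFull N) =>
    (x : LaurentSeries K)) ha
  simp only [coe_jj] at h1
  have h2 : (algebraMap K (LaurentSeries K) a) = jqModC K := h1
  have h3 := order_jqModC (k := K)
  rw [← h2, algebraMap_eq_C, HahnSeries.order_C] at h3
  omega

variable (ι : K →+* ℂ)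

variable [FiniteDimensional K⟮jj K N⟯ (laurentBaseChange K (modularFunctionFieldFull N))]
  (hdeg : Module.finrank K⟮jj K N⟯ (laurentBaseChange K (modularFunctionFieldFull N)) =
    dedekindPsi N)

include hdeg

/-- The number of places above a finite point. -/
theorem count_finite (c : K) (τ₀ : ℍ) (hτ : jfun τ₀ = ι c) (g : SL(2, ℤ)) (hg : g • τ₀ = τ₀)
    (hrot : IsPrimitiveRoot (rot τ₀ g⁻¹) (ramJ (ι c))) :
    Nat.card (Quotient (Equiv.Perm.SameCycle.setoid (MulAction.toPerm g : Equiv.Perm (X N)))) =
      Set.ncard {v : Place K (laurentBaseChange K (modularFunctionFieldFull N)) |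
        0 < v.ord (jj K N - algebraMap K _ c)} ∧
    ∀ v : Place K (laurentBaseChange K (modularFunctionFieldFull N)),
      0 < v.ord (jj K N - algebraMap K _ c) → v.ord (jj K N - algebraMap K _ c) ∣ ramJ (ι c) := by
  have ht := transcendental_sub (transcendental_jj (K := K) N) c
  haveI : FiniteDimensional K⟮jj K N - algebraMap K _ c⟯
      (laurentBaseChange K (modularFunctionFieldFull N)) := by
    rw [adjoin_simple_sub]; infer_instance
  refine card_orbits_twist (jj K N - algebraMap K _ c) ht
    (fun x : X N => (thetaM τ₀).comp (phiX N ι x)) ?_ ?_ ?_ ?_ (ramJ (ι c)) ?_ ?_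
    (MulAction.toPerm g) (rot τ₀ g⁻¹) hrot ?_
  · intro x y hxy
    apply phiX_injective N ι
    apply RingHom.ext
    intro f
    exact (thetaM τ₀).injective (congrArg (fun F => F f) hxy)
  · intro x y
    apply agree_on_adjoin
    · intro a
      simp only [RingHom.comp_apply, phiX, phiM_const]
    · simp only [RingHom.comp_apply, phiX, map_sub, phiM_const, phiM_jj]
  · rw [card_X, adjoin_simple_sub, hdeg]
  · intro x a
    refine ⟨ι a, ?_⟩
    rw [RingHom.comp_apply, phiX, phiM_const, thetaM_algebraMap, thetaL_constH]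
  · rw [ramJ]
    split_ifs <;> norm_num
  · intro x
    have h1 : ((thetaM τ₀).comp (phiX N ι x)) (jj K N - algebraMap K _ c) =
        thetaL τ₀ (jH - constH (ι c)) := by
      rw [RingHom.comp_apply, phiX, map_sub, phiM_const, phiM_jj, ← map_sub, thetaM_algebraMap]
    rw [h1]
    apply order_thetaL
    have h2 := ordAt_jfun_sub τ₀
    rw [hτ] at h2
    exact h2
  · intro x
    rw [← RingHom.comp_assoc, ← thetaM_act hg, RingHom.comp_assoc, act_comp_phiX]
    rfl

theorem count_generic (c : K) (h0 : ι c ≠ 0) (h1728 : ι c ≠ 1728)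
    (v : Place K (laurentBaseChange K (modularFunctionFieldFull N)))
    (hv : 0 < v.ord (jj K N - algebraMap K _ c)) : v.ord (jj K N - algebraMap K _ c) = 1 := by
  obtain ⟨τ₀, hτ⟩ := jfun_surjective (ι c)
  have hr : ramJ (ι c) = 1 := by
    rw [ramJ, if_neg h0, if_neg h1728]
  have h1 := (count_finite N ι hdeg c τ₀ hτ 1 (one_smul _ _) (by
    rw [hr]
    have : rot τ₀ (1 : SL(2, ℤ))⁻¹ = 1 := by
      rw [inv_one, rot]
      apply Units.ext
      rw [Units.val_mk0, ModularGroup.denom_apply]
      simp
    rw [this]
    exact IsPrimitiveRoot.one)).2 v hv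
  rw [hr] at h1
  have h2 := Int.le_of_dvd (by norm_num) h1
  simp only [Nat.cast_one] at h2
  omega

include ι in
theorem count_zero : 3 * Set.ncard {v : Place K (laurentBaseChange K (modularFunctionFieldFull N)) |
        0 < v.ord (jj K N - algebraMap K _ 0)} = dedekindPsi N + 2 * nuThree N := by
  have h1 := (count_finite N ι hdeg 0 rho (by rw [jfun_rho, map_zero])
    (ModularGroup.S * ModularGroup.T) ST_smul_rho (by
      have : ramJ (ι 0) = 3 := by rw [ramJ, if_pos (map_zero ι)]
      rw [this]
      exact rot_rho)).1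
  rw [← h1]
  have h3 : (MulAction.toPerm (ModularGroup.S * ModularGroup.T) : Equiv.Perm (X N)) ^ 3 = 1 := by
    apply Equiv.ext
    intro x
    have e : ((MulAction.toPerm (ModularGroup.S * ModularGroup.T) : Equiv.Perm (X N)) ^ 3) x =
      (ModularGroup.S * ModularGroup.T) ^ 3 • x := by
      rw [pow_succ, pow_succ, pow_one, pow_succ, pow_succ, pow_one, mul_smul, mul_smul]
      rfl
    rw [e]
    have e2 : (ModularGroup.S * ModularGroup.T) ^ 3 = (-1 : SL(2, ℤ)) ∨
      (ModularGroup.S * ModularGroup.T) ^ 3 = (1 : SL(2, ℤ)) := by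
      decide
    induction x using QuotientGroup.induction_on with
    | H h =>
      rw [smul_mk]
      rcases e2 with e2 | e2
      · rw [e2, Equiv.Perm.one_apply, mk_eq_iff]
        simp [mul_comm]
      · rw [e2, one_mul]; rfl
  rw [card_sameCycle_prime _ Nat.prime_three h3, card_X]
  congr 2
  exact card_fixed_ST N

include ι in
theorem count_1728 : 2 * Set.ncard {v : Place K (laurentBaseChange K (modularFunctionFieldFull N)) |
        0 < v.ord (jj K N - algebraMap K _ 1728)} = dedekindPsi N + nuTwo N := by
  have h1 := (count_finite N ι hdeg 1728 UpperHalfPlane.I (by rw [jfun_I, map_ofNat])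
    ModularGroup.S S_smul_I (by
      have : ramJ (ι 1728) = 2 := by
        rw [ramJ, if_neg, if_pos]
        · exact map_ofNat ι 1728
        · rw [map_ofNat]
          norm_num
      rw [this]
      exact rot_I)).1
  rw [← h1]
  have h3 : (MulAction.toPerm ModularGroup.S : Equiv.Perm (X N)) ^ 2 = 1 := by
    apply Equiv.ext
    intro x
    have e : ((MulAction.toPerm ModularGroup.S : Equiv.Perm (X N)) ^ 2) x =
      ModularGroup.S ^ 2 • x := by
      rw [pow_two, pow_two, mul_smul]
      rfl
    rw [e]
    have e2 : ModularGroup.S ^ 2 = (-1 : SL(2, ℤ)) := by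
      decide
    induction x using QuotientGroup.induction_on with
    | H h =>
      rw [smul_mk, e2, Equiv.Perm.one_apply, mk_eq_iff]
      simp [mul_comm]
  rw [card_sameCycle_prime _ Nat.prime_two h3, card_X]
  have h4 := card_fixed_S N
  have h5 : Nat.card {x : X N // (MulAction.toPerm ModularGroup.S : Equiv.Perm (X N)) x = x} =
    nuTwo N := h4
  rw [h5]
  norm_num

include ι in
theorem count_cusps : Set.ncard {v : Place K (laurentBaseChange K (modularFunctionFieldFull N)) |
        v.ord (jj K N) < 0} = cuspCount N := by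
  have ht0 := transcendental_jj (K := K) N
  have ht : Transcendental K (jj K N)⁻¹ := by
    intro h
    exact ht0 (by simpa using h.inv)
  have hadj : K⟮(jj K N)⁻¹⟯ = K⟮jj K N⟯ := adjoin_simple_inv' _
  haveI : FiniteDimensional K⟮(jj K N)⁻¹⟯
      (laurentBaseChange K (modularFunctionFieldFull N)) := by
    rw [hadj]; infer_instance
  have h1 := (card_orbits_twist (jj K N)⁻¹ ht (phiC N ι) (phiC_injective N ι) (by
      intro x y
      apply agree_on_adjoin
      · intro a
        rw [phiC_const, phiC_const]
      · rw [map_inv₀, map_inv₀, phiC_jj, phiC_jj])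
    (by rw [card_X, hadj, hdeg])
    (by
      intro x a
      exact ⟨ι a, phiC_const N ι x a⟩) N (NeZero.pos N)
    (by
      intro x
      rw [map_inv₀, phiC_jj]
      have h2 : (qExpand ℂ N (jqModC ℂ)) ≠ 0 := by
        intro h
        have := order_qExpand (k := ℂ) N (jqModC ℂ)
        rw [h, order_jqModC] at this
        simp at this
        exact NeZero.ne N this
      have h3 := HahnSeries.order_mul h2 (inv_ne_zero h2)
      rw [mul_inv_cancel₀ h2, HahnSeries.order_one, order_qExpand, order_jqModC] at h3
      linarith)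
    (MulAction.toPerm ModularGroup.T) (lamC N) (lamC_primitive N) (by
      intro x
      exact twist_comp_phiC N ι x)).1
  have h2 : {v : Place K (laurentBaseChange K (modularFunctionFieldFull N)) |
      0 < v.ord (jj K N)⁻¹} = {v | v.ord (jj K N) < 0} := by
    ext v
    simp only [Set.mem_ofPred_eq]
    rw [v.ord_inv]
    omega
  rw [← h2, ← h1, ← card_TOrbits]
  refine Nat.card_congr (Quotient.congr (Equiv.refl (X N)) ?_)
  intro x y
  change Equiv.Perm.SameCycle _ x y ↔ MulAction.orbitRel (Subgroup.zpowers ModularGroup.T) (X N) x y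
  rw [MulAction.orbitRel_apply, MulAction.mem_orbit_iff]
  have key : ∀ (i : ℤ) (x : X N), ((MulAction.toPerm ModularGroup.T : Equiv.Perm (X N)) ^ i) x =
      ModularGroup.T ^ i • x := by
    intro i x
    have := map_zpow (MulAction.toPermHom SL(2, ℤ) (X N)) ModularGroup.T i
    exact (congrArg (fun s : Equiv.Perm (X N) => s x) this).symm
  constructor
  · rintro ⟨i, hi⟩
    rw [key] at hi
    refine ⟨⟨ModularGroup.T ^ (-i), -i, rfl⟩, ?_⟩
    change ModularGroup.T ^ (-i) • y = x
    rw [← hi, ← mul_smul, ← zpow_add]
    simp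
  · rintro ⟨⟨_, i, rfl⟩, hi⟩
    refine ⟨-i, ?_⟩
    change ModularGroup.T ^ i • y = x at hi
    rw [key, ← hi, ← mul_smul, ← zpow_add]
    simp

end Fermat.Agent.X0Genus
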