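import Fermat.Agent.X0Genus.Embeddings

/-!
# The cusps: embeddings into `ℂ((q^{1/N}))`
-/

set_option autoImplicit false
set_option linter.style.haveILetI false

noncomputable section

open UpperHalfPlane Complex ModularCurve Filter ModularForm IntermediateField CongruenceSubgroup
open scoped Topology Manifold MatrixGroups

local notation "𝕢" => Function.Periodic.qParam

namespace Fermat.Agent.X0Genus

open Fermat.Agent.JFun Fermat.Agent.ModPoly Fermat.Agent.Cosets

/-- The inverse of `evM` on its range. -/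
def invM (p : ℕ) [NeZero p] : (evM p).fieldRange ≃+* FractionRing ConvL :=
  (RingEquiv.ofBijective (evM p).rangeRestrictField
    ⟨(evM p).rangeRestrictField.injective, (evM p).rangeRestrictField_bijective.2⟩).symm

theorem invM_evM (p : ℕ) [NeZero p] (x : FractionRing ConvL) (h : evM p x ∈ (evM p).fieldRange) :
    invM p ⟨evM p x, h⟩ = x := by
  rw [invM, RingEquiv.symm_apply_eq]
  rfl

theorem qParam_affD (N A D : ℕ) [NeZero N] [NeZero A] [NeZero D] (hD : D ∣ N) (B : ℤ) (τ : ℍ) :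
    𝕢 1 (affD A D B τ) =
      Complex.exp (2 * Real.pi * Complex.I * B / D) * qpp N τ ^ (A * (N / D)) := by
  obtain ⟨M, hM⟩ := hD
  have hD0 : (D : ℂ) ≠ 0 := NeZero.ne _
  have hN0 : (N : ℂ) ≠ 0 := NeZero.ne _
  have hM0 : (M : ℂ) ≠ 0 := by
    intro h
    rw [hM] at hN0
    push_cast at hN0
    rw [h, mul_zero] at hN0
    exact hN0 rfl
  have hdiv : N / D = M := by
    rw [hM]
    exact Nat.mul_div_cancel_left _ (NeZero.pos D)
  rw [hdiv, qpp, Function.Periodic.qParam, Function.Periodic.qParam, ← Complex.exp_nat_mul,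
    ← Complex.exp_add, coe_affD]
  congr 1
  have hMN : (N : ℂ) = D * M := by rw [hM]; push_cast; ring
  push_cast
  rw [hMN]
  field_simp
  ring

theorem pull_jdH_mem (N : ℕ) [NeZero N] {d : ℕ} [NeZero d] (hd : d ∣ N) (g : SL(2, ℤ)) :
    ∃ G : ConvL, pull g (jdH d) = evPh N G := by
  obtain ⟨A, D, hA, hD, B, ε, hAD, -, hε⟩ := exists_decomp d g
  have hDN : D ∣ N := (Dvd.intro_left A hAD).trans hd
  haveI : NeZero (A * (N / D)) := ⟨Nat.mul_ne_zero (NeZero.ne A)
    (Nat.div_pos (Nat.le_of_dvd (NeZero.pos N) hDN) (NeZero.pos D)).ne'⟩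
  let c : ℂˣ := Units.mk0 (Complex.exp (2 * Real.pi * Complex.I * B / D)) (Complex.exp_ne_zero _)
  have hc : ‖(c : ℂ)‖ = 1 := by
    change ‖Complex.exp (2 * Real.pi * Complex.I * B / D)‖ = 1
    have : (2 * Real.pi * Complex.I * B / D : ℂ) = ((2 * Real.pi * B / D : ℝ) : ℂ) * Complex.I := by
      push_cast; ring
    rw [this, Complex.norm_exp_ofReal_mul_I]
  refine ⟨⟨qExpand ℂ (A * (N / D)) (twist c (jqModC ℂ)),
    (conv_jqModC.twist hc).qExpand _⟩, ?_⟩
  apply Subtype.ext
  funext τ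
  rw [pull_apply, jdH_apply, hε τ, jfun_smul, evPh_apply]
  simp only
  rw [evz_qExpand, evz_twist, ← evz_jqModC, qParam_affD N A D hDN B τ]
  rfl

variable {K : Type*} [Field K] [Algebra ℚ K] (N : ℕ) [NeZero N] (ι : K →+* ℂ)

theorem constH_eq_evPh (p : ℕ) [NeZero p] (c : ℂ) :
    constH c = evPh p ⟨HahnSeries.single 0 c, conv_single 0 c⟩ := by
  apply Subtype.ext
  funext τ
  rw [evPh_apply, evz_single]
  simp [constH]

theorem phiM_mem_range (g : SL(2, ℤ)) (x : laurentBaseChange K (modularFunctionFieldFull N)) :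
    phiM N ι g x ∈ (evM N).fieldRange := by
  refine mem_of_generators N ((evM N).fieldRange.comap (phiM N ι g)) ?_ ?_ x
  · intro a
    change phiM N ι g _ ∈ (evM N).fieldRange
    rw [phiM_const, constH_eq_evPh N, ← evM_algebraMap]
    exact (evM N).mem_fieldRange.2 ⟨_, rfl⟩
  · intro d _ hd
    change phiM N ι g _ ∈ (evM N).fieldRange
    obtain ⟨G, hG⟩ := pull_jdH_mem N hd g⁻¹
    rw [phiM_jd, hG, ← evM_algebraMap]
    exact (evM N).mem_fieldRange.2 ⟨_, rfl⟩

/-- The embeddings at infinity. -/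
def phiC (x : X N) : laurentBaseChange K (modularFunctionFieldFull N) →+* LaurentSeries ℂ :=
  (inclC.comp (invM N).toRingHom).comp
    ((phiX N ι x).codRestrict (evM N).fieldRange (fun y => phiM_mem_range N ι _ y))

theorem phiC_eq {x : X N} {y : laurentBaseChange K (modularFunctionFieldFull N)}
    {z : FractionRing ConvL} (h : phiX N ι x y = evM N z) : phiC N ι x y = inclC z := by
  change inclC (invM N ⟨phiX N ι x y, _⟩) = _
  have h1 : (⟨phiX N ι x y, phiM_mem_range N ι _ y⟩ : (evM N).fieldRange) =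
      ⟨evM N z, (evM N).mem_fieldRange.2 ⟨_, rfl⟩⟩ := Subtype.ext h
  rw [h1, invM_evM]

theorem exists_phiX_eq (x : X N) (y : laurentBaseChange K (modularFunctionFieldFull N)) :
    ∃ z : FractionRing ConvL, phiX N ι x y = evM N z ∧ phiC N ι x y = inclC z := by
  obtain ⟨z, hz⟩ := (evM N).mem_fieldRange.1 (phiM_mem_range N ι (Quotient.out x) y)
  exact ⟨z, hz.symm, phiC_eq N ι hz.symm⟩

theorem phiC_injective : Function.Injective (phiC N ι) := by
  intro x y h
  apply phiX_injective N ι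
  apply RingHom.ext
  intro f
  obtain ⟨z, hz, hz'⟩ := exists_phiX_eq N ι x f
  obtain ⟨w, hw, hw'⟩ := exists_phiX_eq N ι y f
  rw [h, hw'] at hz'
  have := inclC.injective hz'
  rw [hz, hw, this]

theorem phiC_const (x : X N) (a : K) :
    phiC N ι x (algebraMap K _ a) = HahnSeries.C (ι a) := by
  rw [phiC_eq N ι (z := algebraMap ConvL _ ⟨HahnSeries.single 0 (ι a), conv_single 0 _⟩)]
  · rw [inclC_algebraMap]
    rfl
  · rw [phiX, phiM_const, constH_eq_evPh N, evM_algebraMap]

theorem qpp_pow_self (τ : ℍ) : qpp N τ ^ N = 𝕢 1 τ := by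
  have hN0 : (N : ℂ) ≠ 0 := NeZero.ne _
  rw [qpp, Function.Periodic.qParam, Function.Periodic.qParam, ← Complex.exp_nat_mul]
  congr 1
  push_cast
  field_simp

theorem jH_eq_evPh : jH = evPh N ⟨_, conv_qExpand_jqModC N⟩ := by
  apply Subtype.ext
  funext τ
  rw [evPh_apply]
  simp only
  rw [evz_qExpand, qpp_pow_self, evz_jqModC]
  rfl

theorem phiC_jj (x : X N) : phiC N ι x (jj K N) = qExpand ℂ N (jqModC ℂ) := by
  rw [phiC_eq N ι (z := algebraMap ConvL _ ⟨_, conv_qExpand_jqModC N⟩)]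
  · rw [inclC_algebraMap]
  · rw [phiX, phiM_jj, jH_eq_evPh N, evM_algebraMap]

/-- The root of unity `exp(-2πi/N)`. -/
def lamC : ℂˣ := (Units.mk0 (Complex.exp (2 * Real.pi * Complex.I / N)) (Complex.exp_ne_zero _))⁻¹

theorem lamC_primitive : IsPrimitiveRoot (lamC N) N := by
  have h := (Complex.isPrimitiveRoot_exp N (NeZero.ne N))
  have h2 : IsPrimitiveRoot (Units.mk0 (Complex.exp (2 * Real.pi * Complex.I / N))
      (Complex.exp_ne_zero _)) N := by
    rw [← IsPrimitiveRoot.coe_units_iff]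
    exact h
  exact h2.inv

theorem norm_lamC : ‖((lamC N : ℂˣ) : ℂ)‖ = 1 := by
  have : (((lamC N)⁻¹ : ℂˣ) : ℂ) = Complex.exp (2 * Real.pi * Complex.I / N) := by
    rw [lamC, inv_inv]; rfl
  have h2 : ‖(((lamC N)⁻¹ : ℂˣ) : ℂ)‖ = 1 := by
    rw [this]
    have e : (2 * Real.pi * Complex.I / N : ℂ) = ((2 * Real.pi / N : ℝ) : ℂ) * Complex.I := by
      push_cast; ring
    rw [e, Complex.norm_exp_ofReal_mul_I]
  rw [Units.val_inv_eq_inv_val, norm_inv, inv_eq_one] at h2
  exact h2

theorem qpp_T_inv (τ : ℍ) : qpp N (ModularGroup.T⁻¹ • τ) = (lamC N : ℂ) * qpp N τ := by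
  have h1 : ((ModularGroup.T⁻¹ • τ : ℍ) : ℂ) = τ - 1 := by
    have := UpperHalfPlane.modular_T_zpow_smul τ (-1)
    rw [zpow_neg_one] at this
    rw [this, UpperHalfPlane.coe_vadd]
    push_cast
    ring
  have h2 : ((lamC N : ℂˣ) : ℂ) = Complex.exp (-(2 * Real.pi * Complex.I / N)) := by
    rw [lamC, Units.val_inv_eq_inv_val, Complex.exp_neg]
    rfl
  rw [qpp, qpp, Function.Periodic.qParam, Function.Periodic.qParam, h1, h2, ← Complex.exp_add]
  congr 1
  push_cast
  ring

/-- Twisting on convergent series. -/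
def twistC (c : ℂˣ) (hc : ‖(c : ℂ)‖ = 1) : ConvL →+* ConvL :=
  ((twist c).comp ConvL.subtype).codRestrict ConvL (fun F => F.2.twist hc)

theorem evPh_twistC (F : ConvL) :
    evPh N (twistC (lamC N) (norm_lamC N) F) = pull ModularGroup.T⁻¹ (evPh N F) := by
  apply Subtype.ext
  funext τ
  rw [pull_apply, evPh_apply, evPh_apply, qpp_T_inv]
  exact evz_twist _ _

theorem twistC_injective (c : ℂˣ) (hc : ‖(c : ℂ)‖ = 1) : Function.Injective (twistC c hc) := by
  intro F G h
  apply Subtype.ext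
  have := congrArg Subtype.val h
  exact (twist c).injective this

theorem twist_inclC (c : ℂˣ) (hc : ‖(c : ℂ)‖ = 1) :
    (twist c).comp inclC = inclC.comp (fmap (twistC c hc) (twistC_injective c hc)) := by
  apply frac_hom_ext
  intro F
  rw [RingHom.comp_apply, RingHom.comp_apply, inclC_algebraMap, fmap_algebraMap, inclC_algebraMap]
  rfl

theorem evM_twist : (evM N).comp (fmap (twistC (lamC N) (norm_lamC N)) (twistC_injective _ _)) =
    (act ModularGroup.T).comp (evM N) := by
  apply frac_hom_ext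
  intro F
  rw [RingHom.comp_apply, RingHom.comp_apply, fmap_algebraMap, evM_algebraMap, evM_algebraMap,
    act_algebraMap, evPh_twistC]

theorem twist_comp_phiC (x : X N) :
    (twist (lamC N)).comp (phiC N ι x) = phiC N ι (ModularGroup.T • x) := by
  apply RingHom.ext
  intro f
  obtain ⟨z, hz, hz'⟩ := exists_phiX_eq N ι x f
  rw [RingHom.comp_apply, hz']
  have h1 := congrArg (fun F => F z) (twist_inclC (lamC N) (norm_lamC N))
  simp only [RingHom.comp_apply] at h1
  rw [h1]
  symm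
  apply phiC_eq
  have h2 := congrArg (fun F => F z) (evM_twist N)
  simp only [RingHom.comp_apply] at h2
  rw [h2, ← hz, ← act_comp_phiX]
  rfl

end Fermat.Agent.X0Genus
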