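import Fermat.Agent.X0Genus.Cayley
import Fermat.Agent.X0Genus.CuspCase
import Fermat.Agent.ModPoly.Family
import Fermat.Agent.Cosets.Index
import Fermat.Agent.Cosets.Cusps

/-!
# Elliptic points and the number of places over a point of the `j`-line
-/

set_option autoImplicit false
set_option linter.style.haveILetI false
set_option linter.unusedSectionVars false

noncomputable section

open UpperHalfPlane Complex ModularCurve Filter ModularForm IntermediateField CongruenceSubgroup
open scoped Topology Manifold MatrixGroups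

namespace Fermat.Agent.X0Genus

open Fermat.Agent.JFun Fermat.Agent.ModPoly Fermat.Agent.Cosets AlgebraicCurve

/-! ### Elliptic points -/

theorem S_smul_I : ModularGroup.S • UpperHalfPlane.I = UpperHalfPlane.I := by
  apply UpperHalfPlane.ext
  rw [coe_S_smul]
  simp

/-- The elliptic point of order three. -/
def rho : ℍ := ⟨⟨-1 / 2, Real.sqrt 3 / 2⟩, by
  change 0 < Real.sqrt 3 / 2
  positivity⟩

theorem coe_rho : (rho : ℂ) = ⟨-1 / 2, Real.sqrt 3 / 2⟩ := rfl

theorem rho_eq : (rho : ℂ) ^ 2 + rho + 1 = 0 := by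
  have h3 : Real.sqrt 3 * Real.sqrt 3 = 3 := Real.mul_self_sqrt (by norm_num)
  rw [coe_rho]
  apply Complex.ext
  · simp [pow_two]
    nlinarith
  · simp [pow_two]
    ring

theorem conj_rho : (starRingEnd ℂ) (rho : ℂ) = -1 - rho := by
  rw [coe_rho]
  apply Complex.ext
  · simp
    norm_num
  · simp

theorem ST_smul (τ : ℍ) : (((ModularGroup.S * ModularGroup.T) • τ : ℍ) : ℂ) = -1 / (τ + 1) := by
  rw [mul_smul, coe_S_smul, coe_T_smul]

theorem ST_smul_rho : (ModularGroup.S * ModularGroup.T) • rho = rho := by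
  apply UpperHalfPlane.ext
  rw [ST_smul]
  have h := rho_eq
  have hne : (rho : ℂ) + 1 ≠ 0 := by
    intro h0
    have h1 : (rho : ℂ) = -1 := by linear_combination h0
    rw [h1] at h
    norm_num at h
  rw [div_eq_iff hne]
  linear_combination -h

theorem coe_rot_of (τ : ℍ) (g : SL(2, ℤ)) (h0 : g 0 0 = 0) (h1 : g 1 0 = 1) :
    ((rot τ g⁻¹ : ℂˣ) : ℂ) = (starRingEnd ℂ) (τ : ℂ) / τ := by
  have hd : denom (g⁻¹ : SL(2, ℤ)) τ = -(τ : ℂ) := by
    rw [ModularGroup.denom_apply, inv_apply_one_zero, inv_apply_one_one, h0, h1]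
    simp
  rw [rot, Units.val_mk0, hd, map_neg, neg_div_neg_eq]

theorem rot_I : IsPrimitiveRoot (rot UpperHalfPlane.I ModularGroup.S⁻¹) 2 := by
  rw [← IsPrimitiveRoot.coe_units_iff, coe_rot_of _ _ (by simp [ModularGroup.S])
    (by simp [ModularGroup.S])]
  have : (starRingEnd ℂ) ((UpperHalfPlane.I : ℍ) : ℂ) / (UpperHalfPlane.I : ℍ) = -1 := by
    rw [UpperHalfPlane.coe_I, Complex.conj_I, neg_div, div_self Complex.I_ne_zero]
  rw [this]
  exact IsPrimitiveRoot.neg_one 0 (by norm_num)

theorem rot_rho : IsPrimitiveRoot (rot rho (ModularGroup.S * ModularGroup.T)⁻¹) 3 := by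
  rw [← IsPrimitiveRoot.coe_units_iff, coe_rot_of]
  · have h := rho_eq
    have hne : (rho : ℂ) ≠ 0 := UpperHalfPlane.ne_zero rho
    have e : (starRingEnd ℂ) (rho : ℂ) / rho = rho := by
      rw [conj_rho, div_eq_iff hne]
      linear_combination -h
    rw [e]
    haveI : Fact (Nat.Prime 3) := ⟨Nat.prime_three⟩
    have h3 : (rho : ℂ) ^ 3 = 1 := by linear_combination ((rho : ℂ) - 1) * h
    have h1 : (rho : ℂ) ≠ 1 := by
      intro h1
      rw [h1] at h
      norm_num at h
    have h4 := orderOf_eq_prime h3 h1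
    rw [← h4]
    exact IsPrimitiveRoot.orderOf _
  · rw [mul_apply_zero_zero]; simp [ModularGroup.S, ModularGroup.T]
  · rw [mul_apply_one_zero]; simp [ModularGroup.S, ModularGroup.T]

theorem jfun_I : jfun UpperHalfPlane.I = 1728 := by
  have h6 := levelOne_smul E₆ ModularGroup.S UpperHalfPlane.I
  rw [S_smul_I, ModularGroup.denom_S, UpperHalfPlane.coe_I] at h6
  have h7 : (Complex.I : ℂ) ^ (6 : ℤ) = -1 := by
    have : (Complex.I : ℂ) ^ (6 : ℤ) = (Complex.I ^ 2) ^ 3 := by
      rw [← pow_mul]; norm_cast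
    rw [this, Complex.I_sq]; norm_num
  have h8 : E₆ UpperHalfPlane.I = 0 := by
    have h9 : (2 : ℂ) * E₆ UpperHalfPlane.I = 0 := by
      rw [h7] at h6
      linear_combination h6
    simpa using h9
  have := jfun_sub_1728 UpperHalfPlane.I
  rw [h8] at this
  linear_combination this

theorem jfun_rho : jfun rho = 0 := by
  have h4 := levelOne_smul E₄ (ModularGroup.S * ModularGroup.T) rho
  rw [ST_smul_rho] at h4
  have hd : denom (ModularGroup.S * ModularGroup.T : SL(2, ℤ)) rho = (rho : ℂ) + 1 := by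
    rw [ModularGroup.denom_apply]
    have h1 : (ModularGroup.S * ModularGroup.T) 1 0 = 1 := by
      rw [mul_apply_one_zero]; simp [ModularGroup.S, ModularGroup.T]
    have h2 : (ModularGroup.S * ModularGroup.T) 1 1 = 1 := by
      rw [Matrix.SpecialLinearGroup.coe_mul, Matrix.mul_apply, Fin.sum_univ_two]
      simp [ModularGroup.S, ModularGroup.T]
    rw [h1, h2]
    simp
  rw [hd] at h4
  have h := rho_eq
  have h5 : ((rho : ℂ) + 1) ^ (4 : ℤ) = (rho : ℂ) ^ 2 := by
    have e : ((rho : ℂ) + 1) ^ (4 : ℤ) = ((rho : ℂ) + 1) ^ 4 := by norm_cast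
    rw [e]
    linear_combination ((rho : ℂ) ^ 2 + 3 * rho + 1) * h
  have h6 : E₄ rho = 0 := by
    push_cast at h4
    rw [h5] at h4
    have h7 : ((rho : ℂ) ^ 2 - 1) * E₄ rho = 0 := by linear_combination -h4
    rcases mul_eq_zero.1 h7 with h8 | h8
    · exfalso
      have h9 : (rho : ℂ) = -2 := by linear_combination h - h8
      rw [h9] at h
      norm_num at h
    · exact h8
  rw [jfun, h6]
  simp

end Fermat.Agent.X0Genus
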