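import Fermat.Agent.X0Genus.Twist
import Fermat.Agent.ModPoly.JDelta
import Fermat.Prelude.Def_ModularCurve_ArithmeticGalois

/-!
# The ring of holomorphic functions on `ℍ`, its fraction field and the action of `SL₂(ℤ)`
-/

set_option autoImplicit false
set_option linter.style.haveILetI false

noncomputable section

open UpperHalfPlane Complex ModularCurve Filter ModularForm
open scoped Topology Manifold MatrixGroups

namespace Fermat.Agent.X0Genus

open Fermat.Agent.JFun Fermat.Agent.ModPoly

/-- Holomorphic functions on the upper half plane. -/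
def hol : Subring (ℍ → ℂ) where
  carrier := {f | MDiff f}
  mul_mem' hf hg := hf.mul hg
  one_mem' := mdifferentiable_const
  add_mem' hf hg := hf.add hg
  zero_mem' := mdifferentiable_const
  neg_mem' hf := hf.neg

theorem mem_hol {f : ℍ → ℂ} : f ∈ hol ↔ MDiff f := Iff.rfl

instance : IsDomain hol := by
  haveI : Nontrivial hol := ⟨0, 1, by
    intro h
    have := congrArg (fun f : hol => (f : ℍ → ℂ) I) h
    simp at this⟩
  haveI : NoZeroDivisors hol := ⟨by
    intro f g h
    have h1 : (f : ℍ → ℂ) * (g : ℍ → ℂ) = 0 := congrArg Subtype.val h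
    rcases (UpperHalfPlane.mul_eq_zero_iff f.2 g.2).1 h1 with h2 | h2
    · exact Or.inl (Subtype.ext h2)
    · exact Or.inr (Subtype.ext h2)⟩
  exact NoZeroDivisors.to_isDomain _

/-- Meromorphic quotients. -/
abbrev MF : Type := FractionRing hol

/-- Extension of an injective ring homomorphism to fraction fields. -/
def fmap {A B : Type*} [CommRing A] [IsDomain A] [CommRing B] [IsDomain B] (f : A →+* B)
    (hf : Function.Injective f) : FractionRing A →+* FractionRing B :=
  IsFractionRing.lift (A := A) (K := FractionRing A) (L := FractionRing B)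
    (g := (algebraMap B (FractionRing B)).comp f)
    ((IsFractionRing.injective B (FractionRing B)).comp hf)

theorem fmap_algebraMap {A B : Type*} [CommRing A] [IsDomain A] [CommRing B] [IsDomain B]
    (f : A →+* B) (hf : Function.Injective f) (a : A) :
    fmap f hf (algebraMap A (FractionRing A) a) = algebraMap B (FractionRing B) (f a) :=
  IsFractionRing.lift_algebraMap _ a

theorem frac_hom_ext {A : Type*} [CommRing A] [IsDomain A] {L : Type*} [Field L]
    {f g : FractionRing A →+* L}
    (h : ∀ a, f (algebraMap A (FractionRing A) a) = g (algebraMap A (FractionRing A) a)) :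
    f = g :=
  IsLocalization.ringHom_ext (nonZeroDivisors A) (RingHom.ext h)

theorem mdiff_smul (g : SL(2, ℤ)) {f : ℍ → ℂ} (hf : MDiff f) : MDiff (fun τ => f (g • τ)) := by
  have h1 : MDiff (fun τ : ℍ => ((g : GL (Fin 2) ℝ)) • τ) := by
    apply mdifferentiable_smul
    simp
  exact hf.comp h1

/-- Precomposition with `g ∈ SL₂(ℤ)`. -/
def pull (g : SL(2, ℤ)) : hol →+* hol where
  toFun f := ⟨fun τ => (f : ℍ → ℂ) (g • τ), mdiff_smul g f.2⟩
  map_one' := rfl
  map_zero' := rfl
  map_mul' _ _ := rfl
  map_add' _ _ := rfl

theorem pull_apply (g : SL(2, ℤ)) (f : hol) (τ : ℍ) :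
    (pull g f : ℍ → ℂ) τ = (f : ℍ → ℂ) (g • τ) := rfl

theorem pull_mul (g h : SL(2, ℤ)) (f : hol) : pull (g * h) f = pull h (pull g f) := by
  apply Subtype.ext
  funext τ
  rw [pull_apply, pull_apply, pull_apply, mul_smul]

theorem pull_one (f : hol) : pull 1 f = f := by
  apply Subtype.ext
  funext τ
  rw [pull_apply, one_smul]

theorem pull_injective (g : SL(2, ℤ)) : Function.Injective (pull g) := by
  intro f f' h
  have h2 := congrArg (pull g⁻¹) h
  rwa [← pull_mul, ← pull_mul, mul_inv_cancel, pull_one, pull_one] at h2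

/-- The left action of `SL₂(ℤ)` on `MF`. -/
def act (g : SL(2, ℤ)) : MF →+* MF := fmap (pull g⁻¹) (pull_injective g⁻¹)

theorem act_algebraMap (g : SL(2, ℤ)) (f : hol) :
    act g (algebraMap hol MF f) = algebraMap hol MF (pull g⁻¹ f) := fmap_algebraMap _ _ _

theorem act_mul (g h : SL(2, ℤ)) : act (g * h) = (act g).comp (act h) := by
  apply frac_hom_ext
  intro f
  rw [act_algebraMap, RingHom.comp_apply, act_algebraMap, act_algebraMap, mul_inv_rev, pull_mul]

theorem act_one : act 1 = RingHom.id MF := by
  apply frac_hom_ext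
  intro f
  rw [act_algebraMap, inv_one, pull_one]
  rfl

theorem algebraMap_injective_MF : Function.Injective (algebraMap hol MF) :=
  IsFractionRing.injective hol MF

/-- constants in `hol` -/
def constH : ℂ →+* hol where
  toFun c := ⟨fun _ => c, mdifferentiable_const⟩
  map_one' := rfl
  map_zero' := rfl
  map_mul' _ _ := rfl
  map_add' _ _ := rfl

theorem pull_constH (g : SL(2, ℤ)) (c : ℂ) : pull g (constH c) = constH c := rfl

end Fermat.Agent.X0Genus
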