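import Fermat.Agent.Curve.Orbit
import Fermat.Agent.ModPoly.QEval

/-!
# Places over a point and embeddings into Laurent series with a rotation
-/

set_option autoImplicit false
set_option linter.style.haveILetI false
set_option linter.unusedSectionVars false
set_option linter.unusedVariables false

namespace Fermat.Agent.X0Genus

open AlgebraicCurve IntermediateField Fermat.Agent.Curve Fermat.Agent.ModPoly

theorem coeff_order_ne {f : LaurentSeries ℂ} (hf : f ≠ 0) : f.coeff f.order ≠ 0 :=
  HahnSeries.coeff_orderTop_ne (HahnSeries.order_eq_orderTop_of_ne_zero hf).symm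

theorem twist_ne_zero {f : LaurentSeries ℂ} (hf : f ≠ 0) (lam : ℂˣ) : twist lam f ≠ 0 := by
  rwa [ne_eq, map_eq_zero]

theorem order_twist (lam : ℂˣ) (f : LaurentSeries ℂ) : (twist lam f).order = f.order := by
  rcases eq_or_ne f 0 with rfl | hf
  · simp
  have hc : ∀ n : ℤ, (twist lam f).coeff n ≠ 0 ↔ f.coeff n ≠ 0 := by
    intro n
    rw [twist_coeff, ne_eq, Units.mul_right_eq_zero]
  apply le_antisymm
  · exact HahnSeries.order_le_of_coeff_ne_zero ((hc _).2 (coeff_order_ne hf))
  · exact HahnSeries.order_le_of_coeff_ne_zero ((hc _).1 (coeff_order_ne (twist_ne_zero hf lam)))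

theorem iterate_twist_coeff (lam : ℂˣ) (m : ℕ) (f : LaurentSeries ℂ) (n : ℤ) :
    ((twist lam)^[m] f).coeff n = ((lam : ℂ) ^ (m * n : ℤ)) * f.coeff n := by
  induction m with
  | zero => simp
  | succ m ih =>
    rw [Function.iterate_succ_apply', twist_coeff, ih, ← mul_assoc]
    congr 1
    rw [Units.val_zpow_eq_zpow_val, ← zpow_add₀ lam.ne_zero]
    congr 1
    push_cast
    ring

theorem card_orbits_twist {K F : Type*} [Field K] [IsAlgClosed K] [CharZero K] [Field F]
    [Algebra K F] (t : F) (ht : Transcendental K t) [FiniteDimensional K⟮t⟯ F]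
    {X : Type*} [Finite X] (φ : X → F →+* LaurentSeries ℂ) (hφinj : Function.Injective φ)
    (hφ : ∀ x y, ∀ z ∈ K⟮t⟯, φ x z = φ y z)
    (hcard : Nat.card X = Module.finrank K⟮t⟯ F)
    (hK : ∀ x (a : K), ∃ c : ℂ, φ x (algebraMap K F a) = HahnSeries.C c)
    (e0 : ℕ) (he0 : 0 < e0) (hwt : ∀ x, (φ x t).order = e0)
    (σ : Equiv.Perm X) (lam : ℂˣ) (hlam : IsPrimitiveRoot lam e0)
    (hs : ∀ x, (twist lam).comp (φ x) = φ (σ x)) :
    Nat.card (Quotient (Equiv.Perm.SameCycle.setoid σ)) =
        Set.ncard {v : Place K F | 0 < v.ord t} ∧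
      ∀ v : Place K F, 0 < v.ord t → v.ord t ∣ e0 := by
  refine card_orbits_eq t ht φ hφinj hφ hcard HahnSeries.order ?_ ?_ ?_ e0
    (by exact_mod_cast he0) hwt σ (twist lam) hs ?_ ?_
  · intro f g hf hg
    exact HahnSeries.order_mul hf hg
  · intro f g hf hg hfg
    exact HahnSeries.min_order_le_order_add hfg
  · intro x a ha
    obtain ⟨c, hc⟩ := hK x a
    rw [hc, HahnSeries.order_C]
  · intro f hf
    exact order_twist lam f
  · intro m f hf h
    have h1 := iterate_twist_coeff lam m f f.order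
    rw [h] at h1
    have h2 := coeff_order_ne hf
    have h3 : (lam : ℂ) ^ (m * f.order : ℤ) = 1 := by
      have : (1 - (lam : ℂ) ^ (m * f.order : ℤ)) * f.coeff f.order = 0 := by
        linear_combination h1
      rcases mul_eq_zero.1 this with h4 | h4
      · linear_combination -h4
      · exact absurd h4 h2
    rw [← Units.val_zpow_eq_zpow_val, Units.val_eq_one] at h3
    exact (hlam.zpow_eq_one_iff_dvd _).1 h3

end Fermat.Agent.X0Genus
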